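import Fermat.Agent.S17.H.A.Ext

/-!
# Program MW, strand H: the absolute logarithmic height on the algebraic closure of ℚ

`hT x` is the absolute logarithmic (projective) height of a finite tuple `x` of algebraic numbers,
`hQ x = hT ![x, 1]` the absolute logarithmic height of an algebraic number. The key statement is
`hT_eq`: the height can be computed in ANY number field through which the tuple factors.
-/

set_option autoImplicit false

namespace Fermat.Agent.S17.H

open Height NumberField IntermediateField Module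

/-- The number field generated by a family of algebraic numbers. -/
noncomputable def absFieldOf {ι : Type*} (x : ι → AlgebraicClosure ℚ) :
    IntermediateField ℚ (AlgebraicClosure ℚ) :=
  adjoin ℚ (Set.range x)

theorem mem_absFieldOf {ι : Type*} (x : ι → AlgebraicClosure ℚ) (i : ι) : x i ∈ absFieldOf x :=
  subset_adjoin ℚ _ (Set.mem_range_self i)

/-- The algebraic closure of ℚ is algebraic over ℚ (for the ℚ-algebra structure of a division ring
of characteristic zero). -/
theorem isAlgebraic_Qb : Algebra.IsAlgebraic ℚ (AlgebraicClosure ℚ) :=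
  AlgebraicClosure.isAlgebraic ℚ

instance absFieldOf_finiteDimensional {ι : Type*} [Finite ι] (x : ι → AlgebraicClosure ℚ) :
    FiniteDimensional ℚ (absFieldOf x) :=
  IntermediateField.finiteDimensional_adjoin
    (fun a _ => (isAlgebraic_Qb.isAlgebraic a).isIntegral)

/-- A finite-dimensional subfield of the algebraic closure of ℚ is a number field. -/
theorem numberField_of_finiteDimensional_Qb (A : IntermediateField ℚ (AlgebraicClosure ℚ))
    [FiniteDimensional ℚ A] : NumberField A := {}

/-- The tuple `x`, seen in the number field it generates. -/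
noncomputable def absLiftOf {ι : Type*} (x : ι → AlgebraicClosure ℚ) : ι → absFieldOf x :=
  fun i => ⟨x i, mem_absFieldOf x i⟩

/-- The absolute logarithmic height of a finite tuple of algebraic numbers (a point of projective
space; the zero tuple has height `0`). -/
noncomputable def hT {ι : Type*} [Finite ι] (x : ι → AlgebraicClosure ℚ) : ℝ :=
  haveI : NumberField (absFieldOf x) := numberField_of_finiteDimensional_Qb _
  logHeight (absLiftOf x) / (finrank ℚ (absFieldOf x) : ℝ)

/-- The absolute logarithmic height of an algebraic number. -/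
noncomputable def hQ (x : AlgebraicClosure ℚ) : ℝ := hT ![x, 1]

/-- **The absolute height can be computed in any number field.** -/
theorem hT_eq {K : Type*} [Field K] [NumberField K] (f : K →+* AlgebraicClosure ℚ)
    {ι : Type*} [Finite ι] (x : ι → K) :
    hT (fun i => f (x i)) = logHeight x / (finrank ℚ K : ℝ) := by
  set A := absFieldOf (fun i => f (x i)) with hA
  have : NumberField A := numberField_of_finiteDimensional_Qb _
  let f' : K →ₐ[ℚ] AlgebraicClosure ℚ := f.toRatAlgHom
  have hle : A ≤ f'.fieldRange := by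
    rw [hA, absFieldOf, adjoin_le_iff]
    rintro _ ⟨i, rfl⟩
    exact ⟨x i, rfl⟩
  let e : K ≃ₐ[ℚ] f'.fieldRange := AlgEquiv.ofInjectiveField f'
  let g : A →ₐ[ℚ] K := (e.symm : f'.fieldRange →ₐ[ℚ] K).comp (inclusion hle)
  have hg : ∀ a : A, f (g a) = a := by
    intro a
    have h1 : (e (g a) : AlgebraicClosure ℚ) = a := by
      simp only [g, AlgHom.comp_apply, AlgEquiv.coe_toAlgHom, AlgEquiv.apply_symm_apply]
      rfl
    exact h1
  let _ : Algebra A K := g.toRingHom.toAlgebra
  have : IsScalarTower ℚ A K := IsScalarTower.of_algebraMap_eq (fun q => (g.commutes q).symm)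
  have hx : (fun i => algebraMap A K (absLiftOf (fun i => f (x i)) i)) = x := by
    funext i
    apply f.injective
    exact hg (absLiftOf (fun i => f (x i)) i)
  have hE := Ext.logHeight_algebraMap (K := A) (L := K) (absLiftOf (fun i => f (x i)))
  rw [hx] at hE
  have hdeg : (finrank ℚ K : ℝ) = (finrank ℚ A : ℝ) * (finrank A K : ℝ) := by
    rw [← Nat.cast_mul, Module.finrank_mul_finrank]
  have hpos : (0 : ℝ) < (finrank A K : ℝ) := Nat.cast_pos.mpr Module.finrank_pos
  have hposA : (0 : ℝ) < (finrank ℚ A : ℝ) := Nat.cast_pos.mpr Module.finrank_pos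
  show logHeight (absLiftOf (fun i => f (x i))) / (finrank ℚ A : ℝ) = _
  rw [hE, hdeg]
  field_simp

/-- The height of a tuple of elements of a number field inside the algebraic closure of ℚ. -/
theorem hT_coe (A : IntermediateField ℚ (AlgebraicClosure ℚ)) [NumberField A]
    {ι : Type*} [Finite ι] (x : ι → A) :
    hT (fun i => (x i : AlgebraicClosure ℚ)) = logHeight x / (finrank ℚ A : ℝ) :=
  hT_eq (algebraMap A (AlgebraicClosure ℚ)) x

/-- Every finite tuple of algebraic numbers lies in a number field. -/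
theorem exists_lift_Qb {ι : Type*} [Finite ι] (x : ι → AlgebraicClosure ℚ) :
    ∃ (A : IntermediateField ℚ (AlgebraicClosure ℚ)) (_ : NumberField A) (x' : ι → A),
      ∀ i, (x' i : AlgebraicClosure ℚ) = x i :=
  ⟨absFieldOf x, numberField_of_finiteDimensional_Qb _, absLiftOf x, fun _ => rfl⟩

/-- Two finite tuples of algebraic numbers lie in a common number field. -/
theorem exists_lift₂_Qb {ι ι' : Type*} [Finite ι] [Finite ι'] (x : ι → AlgebraicClosure ℚ)
    (y : ι' → AlgebraicClosure ℚ) :
    ∃ (A : IntermediateField ℚ (AlgebraicClosure ℚ)) (_ : NumberField A) (x' : ι → A)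
      (y' : ι' → A), (∀ i, (x' i : AlgebraicClosure ℚ) = x i) ∧
        ∀ j, (y' j : AlgebraicClosure ℚ) = y j :=
  ⟨absFieldOf (Sum.elim x y), numberField_of_finiteDimensional_Qb _,
    fun i => ⟨x i, mem_absFieldOf (Sum.elim x y) (Sum.inl i)⟩,
    fun j => ⟨y j, mem_absFieldOf (Sum.elim x y) (Sum.inr j)⟩, fun _ => rfl, fun _ => rfl⟩

theorem hT_nonneg {ι : Type*} [Finite ι] (x : ι → AlgebraicClosure ℚ) : 0 ≤ hT x := by
  have : NumberField (absFieldOf x) := numberField_of_finiteDimensional_Qb _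
  exact div_nonneg (logHeight_nonneg _) (Nat.cast_nonneg _)

/-- **Galois invariance** (more generally: invariance under every ring endomorphism). -/
theorem hT_map (σ : AlgebraicClosure ℚ →+* AlgebraicClosure ℚ) {ι : Type*} [Finite ι]
    (x : ι → AlgebraicClosure ℚ) : hT (fun i => σ (x i)) = hT x := by
  have : NumberField (absFieldOf x) := numberField_of_finiteDimensional_Qb _
  exact hT_eq (σ.comp (algebraMap (absFieldOf x) (AlgebraicClosure ℚ))) (absLiftOf x)

/-- The height is a function on projective space: it is invariant under scaling. -/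
theorem hT_smul {ι : Type*} [Finite ι] (x : ι → AlgebraicClosure ℚ) {c : AlgebraicClosure ℚ}
    (hc : c ≠ 0) : hT (c • x) = hT x := by
  obtain ⟨A, hA, x', c', hx, hc'⟩ := exists_lift₂_Qb x ![c]
  have h1 : x = fun i => (x' i : AlgebraicClosure ℚ) := funext fun i => (hx i).symm
  have h2 : c • x = fun i => ((c' 0 • x') i : AlgebraicClosure ℚ) := by
    funext i
    have := hc' 0
    simp only [Matrix.cons_val_zero] at this
    simp [h1, this]
  have hc0 : c' 0 ≠ 0 := by
    intro h
    apply hc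
    have := hc' 0
    simp only [Matrix.cons_val_zero] at this
    rw [← this, h]
    rfl
  rw [h2, hT_coe, logHeight_smul_eq_logHeight _ hc0, ← hT_coe, ← h1]

theorem hT_comp_equiv {ι ι' : Type*} [Finite ι] [Finite ι'] (e : ι ≃ ι')
    (x : ι' → AlgebraicClosure ℚ) : hT (x ∘ e) = hT x := by
  obtain ⟨A, hA, x', hx⟩ := exists_lift_Qb x
  have h1 : x = fun i => (x' i : AlgebraicClosure ℚ) := funext fun i => (hx i).symm
  have h2 : x ∘ e = fun i => ((x' ∘ e) i : AlgebraicClosure ℚ) := by
    funext i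
    simp [h1]
  rw [h2, hT_coe, logHeight_comp_equiv, ← hT_coe, ← h1]

/-! ### The height of an algebraic number -/

theorem hQ_eq {K : Type*} [Field K] [NumberField K] (f : K →+* AlgebraicClosure ℚ) (x : K) :
    hQ (f x) = logHeight₁ x / (finrank ℚ K : ℝ) := by
  have h : (![f x, 1] : Fin 2 → AlgebraicClosure ℚ) = fun i => f (![x, 1] i) := by
    funext i
    fin_cases i <;> simp
  rw [hQ, h, hT_eq, logHeight₁_eq_logHeight]

theorem hQ_coe (A : IntermediateField ℚ (AlgebraicClosure ℚ)) [NumberField A] (a : A) :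
    hQ (a : AlgebraicClosure ℚ) = logHeight₁ a / (finrank ℚ A : ℝ) :=
  hQ_eq (algebraMap A (AlgebraicClosure ℚ)) a

theorem hQ_nonneg (x : AlgebraicClosure ℚ) : 0 ≤ hQ x := hT_nonneg _

/-- **Galois invariance** of the height of an algebraic number. -/
theorem hQ_map (σ : AlgebraicClosure ℚ →+* AlgebraicClosure ℚ) (x : AlgebraicClosure ℚ) :
    hQ (σ x) = hQ x := by
  have h : (![σ x, 1] : Fin 2 → AlgebraicClosure ℚ) = fun i => σ (![x, 1] i) := by
    funext i
    fin_cases i <;> simp
  rw [hQ, h, hT_map, hQ]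

theorem hQ_algEquiv (σ : AlgebraicClosure ℚ ≃ₐ[ℚ] AlgebraicClosure ℚ) (x : AlgebraicClosure ℚ) :
    hQ (σ x) = hQ x :=
  hQ_map (σ : AlgebraicClosure ℚ →+* AlgebraicClosure ℚ) x

theorem hQ_ratCast (q : ℚ) : hQ (q : AlgebraicClosure ℚ) = logHeight₁ q := by
  have h := hQ_eq (algebraMap ℚ (AlgebraicClosure ℚ)) q
  rw [Module.finrank_self, Nat.cast_one, div_one] at h
  rw [← h]
  simp

@[simp] theorem hQ_zero : hQ 0 = 0 := by
  have h := hQ_ratCast 0
  simpa using h

@[simp] theorem hQ_one : hQ 1 = 0 := by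
  have h := hQ_ratCast 1
  simpa using h

theorem finrank_pos_Qb (A : IntermediateField ℚ (AlgebraicClosure ℚ)) [NumberField A] :
    (0 : ℝ) < (finrank ℚ A : ℝ) := Nat.cast_pos.mpr Module.finrank_pos

theorem hQ_inv (x : AlgebraicClosure ℚ) : hQ x⁻¹ = hQ x := by
  obtain ⟨A, hA, z, hz⟩ := exists_lift_Qb ![x]
  have hx : x = (z 0 : AlgebraicClosure ℚ) := (hz 0).symm
  have h1 : (z 0 : AlgebraicClosure ℚ)⁻¹ = (((z 0)⁻¹ : A) : AlgebraicClosure ℚ) := rfl
  rw [hx, h1, hQ_coe, hQ_coe, logHeight₁_inv]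

theorem hQ_neg (x : AlgebraicClosure ℚ) : hQ (-x) = hQ x := by
  obtain ⟨A, hA, z, hz⟩ := exists_lift_Qb ![x]
  have hx : x = (z 0 : AlgebraicClosure ℚ) := (hz 0).symm
  have h1 : -(z 0 : AlgebraicClosure ℚ) = ((-(z 0) : A) : AlgebraicClosure ℚ) := rfl
  rw [hx, h1, hQ_coe, hQ_coe, logHeight₁_neg]

theorem hQ_pow (x : AlgebraicClosure ℚ) (n : ℕ) : hQ (x ^ n) = n * hQ x := by
  obtain ⟨A, hA, z, hz⟩ := exists_lift_Qb ![x]
  have hx : x = (z 0 : AlgebraicClosure ℚ) := (hz 0).symm
  have h1 : (z 0 : AlgebraicClosure ℚ) ^ n = (((z 0) ^ n : A) : AlgebraicClosure ℚ) := rfl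
  rw [hx, h1, hQ_coe, hQ_coe, logHeight₁_pow, mul_div_assoc]

theorem hQ_mul_le (x y : AlgebraicClosure ℚ) : hQ (x * y) ≤ hQ x + hQ y := by
  obtain ⟨A, hA, z, hz⟩ := exists_lift_Qb ![x, y]
  have hx : x = (z 0 : AlgebraicClosure ℚ) := (hz 0).symm
  have hy : y = (z 1 : AlgebraicClosure ℚ) := (hz 1).symm
  have h1 : (z 0 : AlgebraicClosure ℚ) * (z 1 : AlgebraicClosure ℚ) =
      ((z 0 * z 1 : A) : AlgebraicClosure ℚ) := rfl
  rw [hx, hy, h1, hQ_coe, hQ_coe, hQ_coe, ← add_div]
  exact div_le_div_of_nonneg_right (logHeight₁_mul_le _ _) (finrank_pos_Qb A).le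

theorem hQ_add_le (x y : AlgebraicClosure ℚ) : hQ (x + y) ≤ hQ x + hQ y + Real.log 2 := by
  obtain ⟨A, hA, z, hz⟩ := exists_lift_Qb ![x, y]
  have hx : x = (z 0 : AlgebraicClosure ℚ) := (hz 0).symm
  have hy : y = (z 1 : AlgebraicClosure ℚ) := (hz 1).symm
  have h1 : (z 0 : AlgebraicClosure ℚ) + (z 1 : AlgebraicClosure ℚ) =
      ((z 0 + z 1 : A) : AlgebraicClosure ℚ) := rfl
  have hd := finrank_pos_Qb A
  have hle := logHeight₁_add_le (z 0) (z 1)
  rw [NumberField.totalWeight_eq_finrank] at hle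
  rw [hx, hy, h1, hQ_coe, hQ_coe, hQ_coe, div_le_iff₀ hd]
  have h2 : (logHeight₁ (z 0) / (finrank ℚ A : ℝ) + logHeight₁ (z 1) / (finrank ℚ A : ℝ) +
      Real.log 2) * (finrank ℚ A : ℝ) =
      logHeight₁ (z 0) + logHeight₁ (z 1) + (finrank ℚ A : ℝ) * Real.log 2 := by
    field_simp
  rw [h2]
  linarith

theorem hQ_sub_le (x y : AlgebraicClosure ℚ) : hQ (x - y) ≤ hQ x + hQ y + Real.log 2 := by
  rw [sub_eq_add_neg, ← hQ_neg y]
  exact hQ_add_le x (-y)

end Fermat.Agent.S17.H
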