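import Fermat.Agent.S17.H.A.LocalGlobal
import Fermat.Agent.S17.H.Cert.LocConst

/-!
# Program MW, strand H: local-global assembly for the local constants `Cert.locConst`

The local constants of record of block B are
`Cert.locConst c Γ v = (1 if v is nonarchimedean, c otherwise) * ∏ γ ∈ Γ, max 1 (v γ)` for a
multiset `Γ`. A family of local bounds `sup_b v(g_b) ≤ locConst c Γ v * (sup_a v(f_a)) ^ N` at all
absolute values `v` gives

* `logHeight g ≤ N * logHeight f + totalWeight K * log c + ∑ γ ∈ Γ, logHeight₁ γ` in a field with an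
  admissible family of absolute values (`logHeight_le_of_locConst`);
* `hT G ≤ N * hT F + log c + ∑ γ ∈ Γ, hQ γ` for the absolute height (`hT_le_of_locConst`,
  `hT_le_of_locConst_coe`).
-/

set_option autoImplicit false

namespace Fermat.Agent.S17.H

open Height AdmissibleAbsValues

section Field

theorem list_map_prod_eq_prod_get {K M : Type*} [CommMonoid M] (l : List K) (φ : K → M) :
    (l.map φ).prod = ∏ j : Fin l.length, φ (l.get j) := by
  calc (l.map φ).prod = ((List.ofFn fun j : Fin l.length => l.get j).map φ).prod := by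
        rw [List.ofFn_get]
    _ = (List.ofFn fun j : Fin l.length => φ (l.get j)).prod := by
        rw [List.map_ofFn]
        rfl
    _ = ∏ j : Fin l.length, φ (l.get j) := List.prod_ofFn

theorem list_map_sum_eq_sum_get {K M : Type*} [AddCommMonoid M] (l : List K) (φ : K → M) :
    (l.map φ).sum = ∑ j : Fin l.length, φ (l.get j) := by
  calc (l.map φ).sum = ((List.ofFn fun j : Fin l.length => l.get j).map φ).sum := by
        rw [List.ofFn_get]
    _ = (List.ofFn fun j : Fin l.length => φ (l.get j)).sum := by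
        rw [List.map_ofFn]
        rfl
    _ = ∑ j : Fin l.length, φ (l.get j) := List.sum_ofFn

variable {K : Type*} [Field K]

theorem gamProd_coe_eq_prod_get (l : List K) (v : AbsoluteValue K ℝ) :
    Cert.gamProd (l : Multiset K) v = ∏ j : Fin l.length, max (v (l.get j)) 1 ^ 1 := by
  unfold Cert.gamProd
  rw [Multiset.map_coe, Multiset.prod_coe, list_map_prod_eq_prod_get]
  exact Finset.prod_congr rfl fun j _ => by rw [pow_one, max_comm]

variable [AdmissibleAbsValues K] {ι ι' : Type*} [Finite ι] [Finite ι']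

/-- **Local-global assembly** for the local constants `Cert.locConst`. -/
theorem logHeight_le_of_locConst {c : ℝ} (hc : 1 ≤ c) (Γ : Multiset K) (N : ℕ)
    (f : ι → K) (g : ι' → K) (hf : f ≠ 0)
    (h : ∀ v : AbsoluteValue K ℝ,
      (⨆ b, v (g b)) ≤ Cert.locConst c Γ v * (⨆ a, v (f a)) ^ N) :
    logHeight g ≤ N * logHeight f + totalWeight K * Real.log c + (Γ.map logHeight₁).sum := by
  obtain ⟨l, rfl⟩ : ∃ l : List K, (l : Multiset K) = Γ := ⟨Γ.toList, Γ.coe_toList⟩
  have key := logHeight_le_of_local (fun j : Fin l.length => l.get j) hc 1 N f g hf ?_ ?_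
  · rw [Nat.cast_one, one_mul, ← list_map_sum_eq_sum_get l logHeight₁] at key
    rwa [Multiset.map_coe, Multiset.sum_coe]
  · intro v _
    refine (h v).trans ?_
    have hS : 0 ≤ (⨆ a, v (f a)) ^ N := pow_nonneg (Real.iSup_nonneg fun i => v.nonneg _) N
    rw [← gamProd_coe_eq_prod_get]
    exact mul_le_mul_of_nonneg_right (Cert.locConst_le hc _ v) hS
  · intro v hv
    refine (h v).trans (le_of_eq ?_)
    rw [Cert.locConst_of_nonarch (isNonarchimedean v hv), gamProd_coe_eq_prod_get]

end Field

section Abs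

open NumberField Module

variable {ι ι' : Type*} [Finite ι] [Finite ι']

/-- **Local-global assembly for the absolute height** with the local constants `Cert.locConst`,
inside one number field. -/
theorem hT_le_of_locConst_coe (A : IntermediateField ℚ (AlgebraicClosure ℚ)) [NumberField A]
    {c : ℝ} (hc : 1 ≤ c) (Γ : Multiset A) (N : ℕ) (f : ι → A) (g : ι' → A) (hf : f ≠ 0)
    (h : ∀ v : AbsoluteValue A ℝ,
      (⨆ b, v (g b)) ≤ Cert.locConst c Γ v * (⨆ a, v (f a)) ^ N) :
    hT (fun b => (g b : AlgebraicClosure ℚ)) ≤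
      N * hT (fun a => (f a : AlgebraicClosure ℚ)) + Real.log c +
        (Γ.map fun γ : A => hQ (γ : AlgebraicClosure ℚ)).sum := by
  have hd : (0 : ℝ) < (finrank ℚ A : ℝ) := Nat.cast_pos.mpr Module.finrank_pos
  have hle := logHeight_le_of_locConst hc Γ N f g hf h
  rw [NumberField.totalWeight_eq_finrank] at hle
  have hs : (Γ.map fun γ : A => hQ (γ : AlgebraicClosure ℚ)).sum =
      (Γ.map logHeight₁).sum / (finrank ℚ A : ℝ) := by
    simp only [hQ_coe, div_eq_mul_inv]
    rw [Multiset.sum_map_mul_right]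
  rw [hs, hT_coe, hT_coe, div_le_iff₀ hd]
  have h2 : (↑N * (logHeight f / (finrank ℚ A : ℝ)) + Real.log c +
      (Γ.map logHeight₁).sum / (finrank ℚ A : ℝ)) * (finrank ℚ A : ℝ) =
      N * logHeight f + (finrank ℚ A : ℝ) * Real.log c + (Γ.map logHeight₁).sum := by
    field_simp
  rw [h2]
  exact hle

/-- **Local-global assembly for the absolute height** with the local constants `Cert.locConst`:
if in every number field containing the data the local bounds hold at every absolute value, then
`hT G ≤ N * hT F + log c + ∑ γ ∈ Γ, hQ γ`. -/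
theorem hT_le_of_locConst {c : ℝ} (hc : 1 ≤ c) (Γ : Multiset (AlgebraicClosure ℚ)) (N : ℕ)
    (F : ι → AlgebraicClosure ℚ) (G : ι' → AlgebraicClosure ℚ) (hF : F ≠ 0)
    (h : ∀ (A : IntermediateField ℚ (AlgebraicClosure ℚ)) [NumberField A] (f : ι → A)
      (g : ι' → A) (Γ' : Multiset A), (∀ a, (f a : AlgebraicClosure ℚ) = F a) →
      (∀ b, (g b : AlgebraicClosure ℚ) = G b) →
      Γ'.map (fun γ : A => (γ : AlgebraicClosure ℚ)) = Γ →
      ∀ v : AbsoluteValue A ℝ,
        (⨆ b, v (g b)) ≤ Cert.locConst c Γ' v * (⨆ a, v (f a)) ^ N) :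
    hT G ≤ N * hT F + Real.log c + (Γ.map hQ).sum := by
  obtain ⟨l, rfl⟩ : ∃ l : List (AlgebraicClosure ℚ), (l : Multiset (AlgebraicClosure ℚ)) = Γ :=
    ⟨Γ.toList, Γ.coe_toList⟩
  obtain ⟨A, hA, z, hz⟩ :=
    exists_lift_Qb (Sum.elim F (Sum.elim G (fun j : Fin l.length => l.get j)))
  set f : ι → A := fun a => z (Sum.inl a) with hfdef
  set g : ι' → A := fun b => z (Sum.inr (Sum.inl b)) with hgdef
  set Γ' : Multiset A := ((List.ofFn fun j : Fin l.length => z (Sum.inr (Sum.inr j)) : List A) :
    Multiset A) with hΓdef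
  have hf : ∀ a, (f a : AlgebraicClosure ℚ) = F a := fun a => hz (Sum.inl a)
  have hg : ∀ b, (g b : AlgebraicClosure ℚ) = G b := fun b => hz (Sum.inr (Sum.inl b))
  have hΓ : Γ'.map (fun γ : A => (γ : AlgebraicClosure ℚ)) = (l : Multiset (AlgebraicClosure ℚ)) := by
    rw [hΓdef, Multiset.map_coe, List.map_ofFn]
    congr 1
    have h1 : ((fun γ : A => (γ : AlgebraicClosure ℚ)) ∘ fun j : Fin l.length =>
        z (Sum.inr (Sum.inr j))) = fun j : Fin l.length => l.get j :=
      funext fun j => hz (Sum.inr (Sum.inr j))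
    rw [h1, List.ofFn_get]
  have hf0 : f ≠ 0 := by
    intro h0
    apply hF
    funext a
    rw [← hf a, h0]
    rfl
  have key := hT_le_of_locConst_coe A hc Γ' N f g hf0 (h A f g Γ' hf hg hΓ)
  have e1 : (fun b => (g b : AlgebraicClosure ℚ)) = G := funext hg
  have e2 : (fun a => (f a : AlgebraicClosure ℚ)) = F := funext hf
  have e3 : (Γ'.map fun γ : A => hQ (γ : AlgebraicClosure ℚ)).sum =
      ((l : Multiset (AlgebraicClosure ℚ)).map hQ).sum := by
    rw [← hΓ, Multiset.map_map]
    rfl
  rw [e1, e2, e3] at key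
  exact key

end Abs

end Fermat.Agent.S17.H
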