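import Fermat.Agent.S17.H.A.Abs

/-!
# Program MW, strand H: from local bounds to a height inequality

`mulHeight_le_of_local` / `logHeight_le_of_local`: in a field with an admissible family of
absolute values, a bound `sup_b v(g_b) ≤ C(v) * (sup_a v(f_a)) ^ N` at every absolute value `v`
of the family, with local constants of the shape
`C(v) = c ^ [v archimedean] * ∏ j, max (v (γ j)) 1 ^ e` for a fixed finite list `γ`, gives
`logHeight g ≤ N * logHeight f + totalWeight K * log c + e * ∑ j, logHeight₁ (γ j)`.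

`hT_le_of_local` is the same statement for the absolute height on the algebraic closure of ℚ:
`hT G ≤ N * hT F + log c + e * ∑ j, hQ (Γ j)`, uniformly in the number field.
-/

set_option autoImplicit false

namespace Fermat.Agent.S17.H

open Height AdmissibleAbsValues Function

section Field

variable {K : Type*} [Field K] [AdmissibleAbsValues K] {ι ι' : Type*} [Finite ι] [Finite ι']

theorem hasFiniteMulSupport_iSup_nonarch {x : ι → K} (hx : x ≠ 0) :
    (fun v : nonarchAbsVal (K := K) ↦ ⨆ i, v.val (x i)).HasFiniteMulSupport := by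
  have : Nonempty {j // x j ≠ 0} := nonempty_subtype.mpr <| ne_iff.mp hx
  suffices (fun v : nonarchAbsVal (K := K) ↦ ⨆ i : {j // x j ≠ 0}, v.val (x i)).HasFiniteMulSupport by
    convert! this with v
    obtain ⟨i, hi⟩ : ∃ j, x j ≠ 0 := Function.ne_iff.mp hx
    have : Nonempty ι := .intro i
    refine le_antisymm (ciSup_le fun j ↦ ?_) (ciSup_le fun ⟨j, hj⟩ ↦ Finite.le_ciSup_of_le j le_rfl)
    rcases eq_or_ne (x j) 0 with h | h
    · rw [h, v.val.map_zero]
      exact Real.iSup_nonneg' ⟨⟨i, hi⟩, v.val.nonneg ..⟩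
    · exact Finite.le_ciSup_of_le ⟨j, h⟩ le_rfl
  fun_prop (disch := grind)

theorem hasFiniteMulSupport_max_nonarch (x : K) :
    (fun v : nonarchAbsVal (K := K) ↦ max (v.val x) 1).HasFiniteMulSupport := by
  rcases eq_or_ne x 0 with rfl | hx
  · simp [HasFiniteMulSupport]
  fun_prop

/-- **Local-global assembly**, multiplicative form. -/
theorem mulHeight_le_of_local {m : ℕ} (γ : Fin m → K) {c : ℝ} (hc : 1 ≤ c) (e N : ℕ)
    (f : ι → K) (g : ι' → K) (hf : f ≠ 0)
    (harch : ∀ v ∈ archAbsVal (K := K),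
      (⨆ b, v (g b)) ≤ c * (∏ j, max (v (γ j)) 1 ^ e) * (⨆ a, v (f a)) ^ N)
    (hnon : ∀ v ∈ nonarchAbsVal (K := K),
      (⨆ b, v (g b)) ≤ (∏ j, max (v (γ j)) 1 ^ e) * (⨆ a, v (f a)) ^ N) :
    mulHeight g ≤ c ^ totalWeight K * (∏ j, mulHeight₁ (γ j) ^ e) * mulHeight f ^ N := by
  have hc0 : (0 : ℝ) ≤ c := zero_le_one.trans hc
  rcases eq_or_ne g 0 with rfl | hg
  · rw [mulHeight_zero]
    have h1 : 1 ≤ c ^ totalWeight K := one_le_pow₀ hc
    have h2 : (1 : ℝ) ≤ ∏ j, mulHeight₁ (γ j) ^ e :=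
      Finset.prod_induction _ (fun x => (1 : ℝ) ≤ x)
        (fun a b ha hb => one_le_mul_of_one_le_of_one_le ha hb) le_rfl
        (fun j _ => one_le_pow₀ (one_le_mulHeight₁ _))
    have h3 : 1 ≤ mulHeight f ^ N := one_le_pow₀ (one_le_mulHeight f)
    exact one_le_mul_of_one_le_of_one_le (one_le_mul_of_one_le_of_one_le h1 h2) h3
  have hF := hasFiniteMulSupport_iSup_nonarch hf
  have hG := hasFiniteMulSupport_iSup_nonarch hg
  have hΓ : ∀ j, (fun v : nonarchAbsVal (K := K) ↦ max (v.val (γ j)) 1).HasFiniteMulSupport :=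
    fun j => hasFiniteMulSupport_max_nonarch _
  have hΓe : ∀ j, (fun v : nonarchAbsVal (K := K) ↦ max (v.val (γ j)) 1 ^ e).HasFiniteMulSupport :=
    fun j => (hΓ j).fun_pow e
  have hΓp : (fun v : nonarchAbsVal (K := K) ↦ ∏ j, max (v.val (γ j)) 1 ^ e).HasFiniteMulSupport :=
    HasFiniteMulSupport.prod hΓe Finset.univ
  have hFN : (fun v : nonarchAbsVal (K := K) ↦ (⨆ a, v.val (f a)) ^ N).HasFiniteMulSupport :=
    hF.fun_pow N
  -- the archimedean part
  have hA : (archAbsVal.map fun v ↦ ⨆ b, v (g b)).prod ≤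
      c ^ totalWeight K * (∏ j, (archAbsVal.map fun v ↦ max (v (γ j)) 1).prod ^ e) *
        (archAbsVal.map fun v ↦ ⨆ a, v (f a)).prod ^ N := by
    have h1 : (archAbsVal.map fun v ↦ c * (∏ j, max (v (γ j)) 1 ^ e) * (⨆ a, v (f a)) ^ N).prod =
        c ^ totalWeight K * (∏ j, (archAbsVal.map fun v ↦ max (v (γ j)) 1).prod ^ e) *
        (archAbsVal.map fun v ↦ ⨆ a, v (f a)).prod ^ N := by
      rw [Multiset.prod_map_mul, Multiset.prod_map_mul, Multiset.prod_map_pow,
        Multiset.prod_map_prod, Multiset.map_const', Multiset.prod_replicate, totalWeight]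
      congr 2
      exact Finset.prod_congr rfl fun j _ => Multiset.prod_map_pow
    rw [← h1]
    exact Multiset.prod_map_le_prod_map₀ _ _
      (fun v _ ↦ Real.iSup_nonneg_of_nonnegHomClass ..) fun v hv ↦ harch v hv
  -- the non-archimedean part
  have hB : (∏ᶠ v : nonarchAbsVal (K := K), ⨆ b, v.val (g b)) ≤
      (∏ j, (∏ᶠ v : nonarchAbsVal (K := K), max (v.val (γ j)) 1) ^ e) *
        (∏ᶠ v : nonarchAbsVal (K := K), ⨆ a, v.val (f a)) ^ N := by
    have h1 : (∏ᶠ v : nonarchAbsVal (K := K), (∏ j, max (v.val (γ j)) 1 ^ e) *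
        (⨆ a, v.val (f a)) ^ N) =
        (∏ j, (∏ᶠ v : nonarchAbsVal (K := K), max (v.val (γ j)) 1) ^ e) *
        (∏ᶠ v : nonarchAbsVal (K := K), ⨆ a, v.val (f a)) ^ N := by
      rw [finprod_mul_distrib hΓp hFN, finprod_pow hF,
        finprod_prod_comm _ _ fun j _ => hΓe j]
      congr 1
      exact Finset.prod_congr rfl fun j _ => (finprod_pow (hΓ j) e).symm
    rw [← h1]
    exact finprod_le_finprod hG (fun v ↦ Real.iSup_nonneg_of_nonnegHomClass ..)
      (hΓp.fun_mul hFN) fun v ↦ hnon v.val v.prop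
  have hB0 : 0 ≤ ∏ᶠ v : nonarchAbsVal (K := K), ⨆ b, v.val (g b) :=
    finprod_nonneg fun _ ↦ Real.iSup_nonneg_of_nonnegHomClass ..
  have hA0 : 0 ≤ c ^ totalWeight K * (∏ j, (archAbsVal.map fun v ↦ max (v (γ j)) 1).prod ^ e) *
        (archAbsVal.map fun v ↦ ⨆ a, v (f a)).prod ^ N := by
    refine mul_nonneg (mul_nonneg (pow_nonneg hc0 _) (Finset.prod_nonneg fun j _ => pow_nonneg
      (Multiset.prod_map_nonneg fun v _ ↦ by positivity) _)) (pow_nonneg
      (Multiset.prod_map_nonneg fun v _ ↦ Real.iSup_nonneg_of_nonnegHomClass ..) _)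
  calc mulHeight g
      = (archAbsVal.map fun v ↦ ⨆ b, v (g b)).prod *
          ∏ᶠ v : nonarchAbsVal (K := K), ⨆ b, v.val (g b) := mulHeight_eq hg
    _ ≤ (c ^ totalWeight K * (∏ j, (archAbsVal.map fun v ↦ max (v (γ j)) 1).prod ^ e) *
          (archAbsVal.map fun v ↦ ⨆ a, v (f a)).prod ^ N) *
        ((∏ j, (∏ᶠ v : nonarchAbsVal (K := K), max (v.val (γ j)) 1) ^ e) *
          (∏ᶠ v : nonarchAbsVal (K := K), ⨆ a, v.val (f a)) ^ N) :=
        mul_le_mul hA hB hB0 hA0
    _ = c ^ totalWeight K * (∏ j, mulHeight₁ (γ j) ^ e) * mulHeight f ^ N := by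
        rw [mulHeight_eq hf]
        simp only [mulHeight₁_eq, mul_pow, Finset.prod_mul_distrib]
        ring

/-- **Local-global assembly**, logarithmic form. -/
theorem logHeight_le_of_local {m : ℕ} (γ : Fin m → K) {c : ℝ} (hc : 1 ≤ c) (e N : ℕ)
    (f : ι → K) (g : ι' → K) (hf : f ≠ 0)
    (harch : ∀ v ∈ archAbsVal (K := K),
      (⨆ b, v (g b)) ≤ c * (∏ j, max (v (γ j)) 1 ^ e) * (⨆ a, v (f a)) ^ N)
    (hnon : ∀ v ∈ nonarchAbsVal (K := K),
      (⨆ b, v (g b)) ≤ (∏ j, max (v (γ j)) 1 ^ e) * (⨆ a, v (f a)) ^ N) :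
    logHeight g ≤ N * logHeight f + totalWeight K * Real.log c + e * ∑ j, logHeight₁ (γ j) := by
  have h := mulHeight_le_of_local γ hc e N f g hf harch hnon
  have hc' : c ^ totalWeight K ≠ 0 := pow_ne_zero _ (zero_lt_one.trans_le hc).ne'
  have hp : (∏ j, mulHeight₁ (γ j) ^ e) ≠ 0 :=
    Finset.prod_ne_zero_iff.mpr fun j _ => pow_ne_zero _ (mulHeight₁_ne_zero _)
  have hfN : mulHeight f ^ N ≠ 0 := pow_ne_zero _ (mulHeight_ne_zero f)
  rw [logHeight_eq_log_mulHeight]
  refine (Real.log_le_log (mulHeight_pos g) h).trans (le_of_eq ?_)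
  rw [Real.log_mul (mul_ne_zero hc' hp) hfN, Real.log_mul hc' hp, Real.log_pow, Real.log_pow,
    Real.log_prod (fun j _ => pow_ne_zero _ (mulHeight₁_ne_zero _))]
  simp only [Real.log_pow, ← logHeight₁_eq_log_mulHeight₁, ← logHeight_eq_log_mulHeight,
    ← Finset.mul_sum]
  ring

/-- **Local-global assembly** with the local hypothesis stated for ALL absolute values of the
field: the constant `c` is allowed at every absolute value and must be absent at the
non-archimedean ones. -/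
theorem logHeight_le_of_forall_abv {m : ℕ} (γ : Fin m → K) {c : ℝ} (hc : 1 ≤ c) (e N : ℕ)
    (f : ι → K) (g : ι' → K) (hf : f ≠ 0)
    (h : ∀ v : AbsoluteValue K ℝ,
      ((⨆ b, v (g b)) ≤ c * (∏ j, max (v (γ j)) 1 ^ e) * (⨆ a, v (f a)) ^ N) ∧
      (IsNonarchimedean v →
        (⨆ b, v (g b)) ≤ (∏ j, max (v (γ j)) 1 ^ e) * (⨆ a, v (f a)) ^ N)) :
    logHeight g ≤ N * logHeight f + totalWeight K * Real.log c + e * ∑ j, logHeight₁ (γ j) :=
  logHeight_le_of_local γ hc e N f g hf (fun v _ => (h v).1)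
    (fun v hv => (h v).2 (isNonarchimedean v hv))

end Field

/-! ### The absolute height -/

section Abs

open NumberField Module

variable {ι ι' : Type*} [Finite ι] [Finite ι']

/-- **Local-global assembly for the absolute height**, inside one number field. -/
theorem hT_le_of_local_coe (A : IntermediateField ℚ (AlgebraicClosure ℚ)) [NumberField A]
    {m : ℕ} (γ : Fin m → A) {c : ℝ} (hc : 1 ≤ c) (e N : ℕ) (f : ι → A) (g : ι' → A)
    (hf : f ≠ 0)
    (h : ∀ v : AbsoluteValue A ℝ,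
      ((⨆ b, v (g b)) ≤ c * (∏ j, max (v (γ j)) 1 ^ e) * (⨆ a, v (f a)) ^ N) ∧
      (IsNonarchimedean v →
        (⨆ b, v (g b)) ≤ (∏ j, max (v (γ j)) 1 ^ e) * (⨆ a, v (f a)) ^ N)) :
    hT (fun b => (g b : AlgebraicClosure ℚ)) ≤
      N * hT (fun a => (f a : AlgebraicClosure ℚ)) + Real.log c +
        e * ∑ j, hQ (γ j : AlgebraicClosure ℚ) := by
  have hd : (0 : ℝ) < (finrank ℚ A : ℝ) := Nat.cast_pos.mpr Module.finrank_pos
  have hle := logHeight_le_of_forall_abv γ hc e N f g hf h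
  rw [NumberField.totalWeight_eq_finrank] at hle
  simp only [hT_coe, hQ_coe]
  rw [div_le_iff₀ hd]
  have h2 : (↑N * (logHeight f / (finrank ℚ A : ℝ)) + Real.log c +
      ↑e * ∑ j, logHeight₁ (γ j) / (finrank ℚ A : ℝ)) * (finrank ℚ A : ℝ) =
      N * logHeight f + (finrank ℚ A : ℝ) * Real.log c + e * ∑ j, logHeight₁ (γ j) := by
    rw [← Finset.sum_div]
    field_simp
  rw [h2]
  exact hle

/-- **Local-global assembly for the absolute height**: if in every number field containing the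
data the local bounds hold at every absolute value, with local constants
`c ^ [v archimedean] * ∏ j, max (v (γ j)) 1 ^ e`, then `hT G ≤ N * hT F + log c + e * ∑ j, hQ (Γ j)`. -/
theorem hT_le_of_local {m : ℕ} (Γ : Fin m → AlgebraicClosure ℚ) {c : ℝ} (hc : 1 ≤ c) (e N : ℕ)
    (F : ι → AlgebraicClosure ℚ) (G : ι' → AlgebraicClosure ℚ) (hF : F ≠ 0)
    (h : ∀ (A : IntermediateField ℚ (AlgebraicClosure ℚ)) [NumberField A] (f : ι → A)
      (g : ι' → A) (γ : Fin m → A), (∀ a, (f a : AlgebraicClosure ℚ) = F a) →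
      (∀ b, (g b : AlgebraicClosure ℚ) = G b) → (∀ j, (γ j : AlgebraicClosure ℚ) = Γ j) →
      ∀ v : AbsoluteValue A ℝ,
        ((⨆ b, v (g b)) ≤ c * (∏ j, max (v (γ j)) 1 ^ e) * (⨆ a, v (f a)) ^ N) ∧
        (IsNonarchimedean v →
          (⨆ b, v (g b)) ≤ (∏ j, max (v (γ j)) 1 ^ e) * (⨆ a, v (f a)) ^ N)) :
    hT G ≤ N * hT F + Real.log c + e * ∑ j, hQ (Γ j) := by
  obtain ⟨A, hA, z, hz⟩ := exists_lift_Qb (Sum.elim F (Sum.elim G Γ))
  set f : ι → A := fun a => z (Sum.inl a) with hfdef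
  set g : ι' → A := fun b => z (Sum.inr (Sum.inl b)) with hgdef
  set γ : Fin m → A := fun j => z (Sum.inr (Sum.inr j)) with hγdef
  have hf : ∀ a, (f a : AlgebraicClosure ℚ) = F a := fun a => hz (Sum.inl a)
  have hg : ∀ b, (g b : AlgebraicClosure ℚ) = G b := fun b => hz (Sum.inr (Sum.inl b))
  have hγ : ∀ j, (γ j : AlgebraicClosure ℚ) = Γ j := fun j => hz (Sum.inr (Sum.inr j))
  have hf0 : f ≠ 0 := by
    intro h0
    apply hF
    funext a
    rw [← hf a, h0]
    rfl
  have key := hT_le_of_local_coe A γ hc e N f g hf0 (h A f g γ hf hg hγ)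
  have e1 : (fun b => (g b : AlgebraicClosure ℚ)) = G := funext hg
  have e2 : (fun a => (f a : AlgebraicClosure ℚ)) = F := funext hf
  have e3 : ∀ j, hQ (γ j : AlgebraicClosure ℚ) = hQ (Γ j) := fun j => by rw [hγ j]
  rw [e1, e2] at key
  simpa only [e3] using key

end Abs

end Fermat.Agent.S17.H
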