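import Fermat.Agent.S17.H.A.Eval
import Fermat.Agent.S17.H.B.Certificate
import Fermat.Agent.S17.H.Cert.LocalCert

/-!
# Program MW, strand H: the lower bound for the absolute height under a morphism

`hT_eval_ge`: forms `p j` of one degree `N` over the algebraic closure of `ℚ` without a common
zero other than the origin satisfy `N * hT x ≤ hT (p x) + C` for every `x ≠ 0`, with a constant
`C` that does not depend on `x`.

Proof: the projective Nullstellensatz certificate (`B.exists_certificate_top`) gives forms
`q (i, j)` of one degree `M` with `∑ j, q (i, j) * p j = X i ^ (M + N)`; in a number field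
containing `x` and the coefficients of `p` and `q` the certificate gives, at every absolute value
`v`, the local bound `(sup_i v (x i)) ^ N ≤ locConst c Γ v * sup_j v (p j (x))`
(`Cert.cert_lower`), and the local-global assembly `hT_le_of_locConst_coe` sums these bounds.
The constant is `log (card ι' * monoCount q) + ∑ γ ∈ famCoeffs q, hQ γ`
(`hT_eval_ge_of_certificate`: for any certificate `q` that holds at the point `x`, e.g. on a
closed cone).
-/

set_option autoImplicit false

namespace Fermat.Agent.S17.H

open Height MvPolynomial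

/-- **Lower bound for the absolute height from a certificate at a point**, explicit constant: if
`∑ j, q (i, j)(x) * p j (x) = x i ^ (M + N)` for all `i`, with `q (i, j)` homogeneous of degree
`M`, and `x ≠ 0`, then
`N * hT x ≤ hT (p x) + (log (card ι' * monoCount q) + ∑ γ ∈ famCoeffs q, hQ γ)`. -/
theorem hT_eval_ge_of_certificate {ι ι' : Type*} [Fintype ι] [Fintype ι'] {M N : ℕ}
    (p : ι' → MvPolynomial ι (AlgebraicClosure ℚ))
    (q : ι × ι' → MvPolynomial ι (AlgebraicClosure ℚ)) (hq : ∀ a, (q a).IsHomogeneous M)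
    (x : ι → AlgebraicClosure ℚ) (hx : x ≠ 0)
    (hrel : ∀ i, ∑ j, eval x (q (i, j)) * eval x (p j) = x i ^ (M + N)) :
    N * hT x ≤ hT (fun j => eval x (p j)) +
      (Real.log ((Fintype.card ι' : ℝ) * Cert.monoCount q) + ((Cert.famCoeffs q).map hQ).sum) := by
  classical
  -- a number field containing `x` and the coefficients of `p` and `q`
  let S : Finset (AlgebraicClosure ℚ) :=
    (Finset.univ.biUnion fun a => (q a).coeffs) ∪ (Finset.univ.biUnion fun j => (p j).coeffs)
  obtain ⟨A, hA, z, hz⟩ :=
    exists_lift_Qb (Sum.elim x (fun s : S => (s : AlgebraicClosure ℚ)))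
  have : NumberField A := hA
  set φ : A →+* AlgebraicClosure ℚ := algebraMap A (AlgebraicClosure ℚ) with hφ
  set x' : ι → A := fun i => z (Sum.inl i) with hx'def
  have hx' : ∀ i, φ (x' i) = x i := fun i => hz (Sum.inl i)
  have hSmem : ∀ c ∈ S, c ∈ Set.range φ := fun c hc =>
    ⟨z (Sum.inr ⟨c, hc⟩), hz (Sum.inr ⟨c, hc⟩)⟩
  have hqex : ∀ a, ∃ r : MvPolynomial ι A, map φ r = q a := fun a =>
    Set.mem_range.mp (mem_range_map_iff_coeffs_subset.mpr fun c hc =>
      hSmem c (Finset.mem_union_left _
        (Finset.mem_biUnion.mpr ⟨a, Finset.mem_univ a, Finset.mem_coe.mp hc⟩)))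
  have hpex : ∀ j, ∃ r : MvPolynomial ι A, map φ r = p j := fun j =>
    Set.mem_range.mp (mem_range_map_iff_coeffs_subset.mpr fun c hc =>
      hSmem c (Finset.mem_union_right _
        (Finset.mem_biUnion.mpr ⟨j, Finset.mem_univ j, Finset.mem_coe.mp hc⟩)))
  choose q' hq' using hqex
  choose p' hp' using hpex
  have hxx : φ ∘ x' = x := funext fun i => hx' i
  have hev : ∀ r : MvPolynomial ι A, φ (eval x' r) = eval x (map φ r) := fun r => by
    rw [eval_map, eval₂_comp, hxx]
  have hq'hom : ∀ a, (q' a).IsHomogeneous M := fun a =>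
    isHomogeneous_of_map φ (by rw [hq' a]; exact hq a)
  have hrelA : ∀ k, ∑ j, eval x' (q' (k, j)) * eval x' (p' j) = x' k ^ (M + N) := by
    intro k
    apply φ.injective
    rw [map_sum, map_pow, hx' k, ← hrel k]
    refine Finset.sum_congr rfl fun j _ => ?_
    rw [map_mul, hev, hev, hq', hp']
  have hx'0 : x' ≠ 0 := by
    intro hzero
    apply hx
    funext i
    rw [← hx' i, hzero]
    exact map_zero φ
  have hf0 : (fun j => eval x' (p' j)) ≠ 0 := by
    intro hf
    apply hx'0
    funext i
    have h1 : ∀ j, eval x' (p' j) = 0 := fun j => congrFun hf j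
    have h2 := hrelA i
    simp only [h1, mul_zero, Finset.sum_const_zero] at h2
    exact eq_zero_of_pow_eq_zero h2.symm
  obtain ⟨i₀, -⟩ : ∃ i, x i ≠ 0 := Function.ne_iff.mp hx
  have : Nonempty ι := ⟨i₀⟩
  have : Nonempty ι' := by
    by_contra hne
    rw [not_nonempty_iff] at hne
    exact hf0 (funext fun j => isEmptyElim j)
  have hc : (1 : ℝ) ≤ (Fintype.card ι' : ℝ) * Cert.monoCount q' := by
    have h1 : (1 : ℝ) ≤ (Fintype.card ι' : ℝ) := by exact_mod_cast Fintype.card_pos
    exact one_le_mul_of_one_le_of_one_le h1 (Cert.one_le_monoCount q')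
  -- the local bounds, summed by the local-global assembly
  have key := hT_le_of_locConst_coe A hc (Cert.famCoeffs q') 1 (fun j => eval x' (p' j))
    (x' ^ N) hf0 (by
      intro v
      have hsup : (⨆ b, v ((x' ^ N) b)) ≤ (⨆ i, v (x' i)) ^ N := ciSup_le fun b => by
        rw [Pi.pow_apply, map_pow]
        exact pow_le_pow_left₀ (v.nonneg _) (Finite.le_ciSup (fun i => v (x' i)) b) N
      rw [pow_one]
      exact hsup.trans (Cert.cert_lower v hq'hom p' hx'0 hrelA))
  -- rewrite the three terms of `key`
  have e1 : hT (fun b => (((x' ^ N) b : A) : AlgebraicClosure ℚ)) = N * hT x := by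
    have h1 := hT_coe A (x' ^ N)
    have h2 := hT_coe A x'
    have h3 : (fun i => (x' i : AlgebraicClosure ℚ)) = x := funext hx'
    rw [h3] at h2
    rw [h1, h2, logHeight_pow, mul_div_assoc]
  have e2 : (fun a => ((eval x' (p' a) : A) : AlgebraicClosure ℚ)) =
      fun j => eval x (p j) := funext fun j => by
    have h1 := hev (p' j)
    rw [hp' j] at h1
    exact h1
  have e3 : ((Cert.famCoeffs q').map fun γ : A => hQ (γ : AlgebraicClosure ℚ)).sum =
      ((Cert.famCoeffs q).map hQ).sum := by
    have h2 : Cert.famCoeffs q = (Cert.famCoeffs q').map φ := by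
      rw [← famCoeffs_map φ q']
      exact congrArg Cert.famCoeffs (funext fun a => (hq' a).symm)
    rw [h2, Multiset.map_map]
    rfl
  have hmc : Cert.monoCount q' = Cert.monoCount q := by
    rw [← monoCount_map φ q']
    exact congrArg Cert.monoCount (funext fun a => hq' a)
  rw [e1, e2, e3, hmc] at key
  simp only [Nat.cast_one, one_mul] at key
  linarith

/-- **Lower bound for the absolute height under a morphism.**  Forms `p j` of degree `N` over
the algebraic closure of `ℚ` without a common zero other than the origin: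
`N * hT x ≤ hT (p x) + C` for all `x ≠ 0`. -/
theorem hT_eval_ge {ι ι' : Type*} [Fintype ι] [Fintype ι'] {N : ℕ}
    (p : ι' → MvPolynomial ι (AlgebraicClosure ℚ)) (hp : ∀ j, (p j).IsHomogeneous N)
    (h0 : ∀ x : ι → AlgebraicClosure ℚ, (∀ j, MvPolynomial.eval x (p j) = 0) → x = 0) :
    ∃ C : ℝ, ∀ x : ι → AlgebraicClosure ℚ, x ≠ 0 →
      N * hT x ≤ hT (fun j => MvPolynomial.eval x (p j)) + C := by
  obtain ⟨M, q, hq, hrel⟩ := B.exists_certificate_top p hp h0
  exact ⟨_, fun x hx => hT_eval_ge_of_certificate p q hq x hx (hrel x)⟩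

/-- The same on a closed cone: forms `p j` of degree `N` without a common zero other than the
origin on the zero locus `W` of an ideal `I` stable under homogeneous components satisfy
`N * hT x ≤ hT (p x) + C` for all `x ≠ 0` in `W`. -/
theorem hT_eval_ge_of_cone {ι ι' : Type*} [Fintype ι] [Fintype ι'] {N : ℕ}
    (I : Ideal (MvPolynomial ι (AlgebraicClosure ℚ)))
    (hI : ∀ a ∈ I, ∀ m, homogeneousComponent m a ∈ I)
    (p : ι' → MvPolynomial ι (AlgebraicClosure ℚ)) (hp : ∀ j, (p j).IsHomogeneous N)
    (h0 : ∀ x ∈ zeroLocus (AlgebraicClosure ℚ) I, (∀ j, MvPolynomial.eval x (p j) = 0) → x = 0) :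
    ∃ C : ℝ, ∀ x ∈ zeroLocus (AlgebraicClosure ℚ) I, x ≠ 0 →
      N * hT x ≤ hT (fun j => MvPolynomial.eval x (p j)) + C := by
  obtain ⟨M, q, hq, hrel⟩ := B.exists_certificate I hI p hp h0
  exact ⟨_, fun x hxI hx => hT_eval_ge_of_certificate p q hq x hx (hrel x hxI)⟩

end Fermat.Agent.S17.H
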