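import Fermat.Agent.S17.H.A.LocConstGlobal

/-!
# Program MW, strand H: the height of the image under a polynomial map

`hT_eval_le_explicit`: for a finite family `p` of homogeneous polynomials of degree `N` with
coefficients in the algebraic closure of ℚ and every tuple `x` of algebraic numbers,

`hT (p(x)) ≤ log (monoCount p) + ∑ (hQ of the coefficients of p) + N * hT x`.

The constant does not depend on `x` (nor on any number field), and the coefficient of `hT x` is
exactly `N`.
-/

set_option autoImplicit false

namespace Fermat.Agent.S17.H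

open MvPolynomial

@[simp] theorem hT_zero {ι : Type*} [Finite ι] : hT (0 : ι → AlgebraicClosure ℚ) = 0 := by
  have h := hT_eq (algebraMap ℚ (AlgebraicClosure ℚ)) (0 : ι → ℚ)
  have e : (fun i : ι => algebraMap ℚ (AlgebraicClosure ℚ) ((0 : ι → ℚ) i)) = 0 := by
    funext i
    simp
  rw [e, Height.logHeight_zero, zero_div] at h
  exact h

section Transport

variable {K L : Type*} [Field K] [Field L] {ι : Type*}

theorem coeffMS_map (φ : K →+* L) (p : MvPolynomial ι K) :
    Cert.coeffMS (MvPolynomial.map φ p) = (Cert.coeffMS p).map φ := by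
  unfold Cert.coeffMS
  rw [MvPolynomial.support_map_of_injective p φ.injective, Multiset.map_map]
  refine Multiset.map_congr rfl fun s _ => ?_
  simp [MvPolynomial.coeff_map]

theorem famCoeffs_map {α : Type*} [Fintype α] (φ : K →+* L) (q : α → MvPolynomial ι K) :
    Cert.famCoeffs (fun a => MvPolynomial.map φ (q a)) = (Cert.famCoeffs q).map φ := by
  unfold Cert.famCoeffs
  have h := map_sum (Multiset.mapAddMonoidHom (φ : K → L)) (fun a => Cert.coeffMS (q a))
    Finset.univ
  simp only [Multiset.coe_mapAddMonoidHom] at h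
  rw [h]
  exact Finset.sum_congr rfl fun a _ => coeffMS_map φ (q a)

theorem monoCount_map {α : Type*} [Fintype α] (φ : K →+* L) (q : α → MvPolynomial ι K) :
    Cert.monoCount (fun a => MvPolynomial.map φ (q a)) = Cert.monoCount q := by
  unfold Cert.monoCount
  simp [MvPolynomial.support_map_of_injective _ φ.injective]

theorem isHomogeneous_of_map (φ : K →+* L) {p : MvPolynomial ι K} {N : ℕ}
    (h : (MvPolynomial.map φ p).IsHomogeneous N) : p.IsHomogeneous N := by
  intro d hd
  apply h
  rw [MvPolynomial.coeff_map]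
  exact (map_ne_zero φ).mpr hd

end Transport

variable {ι ι' : Type*} [Finite ι] [Fintype ι']

/-- The local bound for a polynomial map with coefficients in the algebraic closure of ℚ, in a
number field containing the point, the values and the coefficients. -/
theorem eval_local_bound {N : ℕ} (p : ι' → MvPolynomial ι (AlgebraicClosure ℚ))
    (hp : ∀ j, (p j).IsHomogeneous N) (A : IntermediateField ℚ (AlgebraicClosure ℚ))
    (f : ι → A) (g : ι' → A) (Γ' : Multiset A)
    (hg : ∀ j, (g j : AlgebraicClosure ℚ) =
      MvPolynomial.eval (fun i => (f i : AlgebraicClosure ℚ)) (p j))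
    (hΓ : Γ'.map (fun γ : A => (γ : AlgebraicClosure ℚ)) = Cert.famCoeffs p)
    (v : AbsoluteValue A ℝ) :
    (⨆ j, v (g j)) ≤ Cert.locConst (Cert.monoCount p) Γ' v * (⨆ i, v (f i)) ^ N := by
  set φ : A →+* AlgebraicClosure ℚ := algebraMap A (AlgebraicClosure ℚ) with hφ
  have hφcoe : (φ : A → AlgebraicClosure ℚ) = fun γ : A => (γ : AlgebraicClosure ℚ) := rfl
  have hlift : ∀ j, ∃ p' : MvPolynomial ι A, MvPolynomial.map φ p' = p j := by
    intro j
    have hmem : p j ∈ Set.range (MvPolynomial.map φ) := by
      rw [MvPolynomial.mem_range_map_iff_coeffs_subset]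
      intro c hc
      have hc' : c ∈ (p j).coeffs := hc
      rw [MvPolynomial.mem_coeffs_iff] at hc'
      obtain ⟨s, hs, rfl⟩ := hc'
      have hmem : (p j).coeff s ∈ Cert.famCoeffs p := Cert.coeff_mem_famCoeffs p j hs
      rw [← hΓ, Multiset.mem_map] at hmem
      obtain ⟨γ, _, hγ⟩ := hmem
      exact ⟨γ, hγ⟩
    exact hmem
  choose p' hp' using hlift
  have hpfun : (fun j => MvPolynomial.map φ (p' j)) = p := funext hp'
  have hp'h : ∀ j, (p' j).IsHomogeneous N := fun j =>
    isHomogeneous_of_map φ (by rw [hp' j]; exact hp j)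
  have hfam : Cert.famCoeffs p' = Γ' := by
    apply Multiset.map_injective φ.injective
    rw [← famCoeffs_map, hpfun, hφcoe]
    exact hΓ.symm
  have hmono : Cert.monoCount p' = Cert.monoCount p := by
    rw [← monoCount_map φ p', hpfun]
  have hge : ∀ j, g j = MvPolynomial.eval f (p' j) := by
    intro j
    apply φ.injective
    have h1 : φ (g j) = (g j : AlgebraicClosure ℚ) := rfl
    rw [h1, hg j, ← hp' j, MvPolynomial.eval_map, ← MvPolynomial.eval₂_id (p' j),
      MvPolynomial.eval₂_comp_left]
    rfl
  refine Real.iSup_le (fun j => ?_) ?_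
  · rw [hge j, ← hfam, ← hmono]
    exact Cert.abv_eval_le v p' j (hp'h j) f
  · exact mul_nonneg
      (Cert.locConst_nonneg (le_trans zero_le_one (Cert.one_le_monoCount p)) _ v)
      (pow_nonneg (Real.iSup_nonneg fun i => v.nonneg _) N)

/-- **Height of the image under a polynomial map**, explicit constant. -/
theorem hT_eval_le_explicit {N : ℕ} (p : ι' → MvPolynomial ι (AlgebraicClosure ℚ))
    (hp : ∀ j, (p j).IsHomogeneous N) (x : ι → AlgebraicClosure ℚ) :
    hT (fun j => MvPolynomial.eval x (p j)) ≤
      Real.log (Cert.monoCount p) + ((Cert.famCoeffs p).map hQ).sum + N * hT x := by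
  have hc := Cert.one_le_monoCount p
  rcases eq_or_ne x 0 with rfl | hx
  · have hF : (fun _ : Unit => (1 : AlgebraicClosure ℚ)) ≠ 0 := by
      intro h
      have := congr_fun h ()
      simp at this
    have key := hT_le_of_locConst hc (Cert.famCoeffs p) 0
      (fun _ : Unit => (1 : AlgebraicClosure ℚ))
      (fun j => MvPolynomial.eval (0 : ι → AlgebraicClosure ℚ) (p j)) hF ?_
    · rw [hT_zero]
      simp only [Nat.cast_zero, zero_mul, zero_add, mul_zero, add_zero] at key ⊢
      exact key
    · intro A _ f₁ g Γ' _ hg hΓ v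
      have h0 := eval_local_bound p hp A (0 : ι → A) g Γ' (fun j => hg j) hΓ v
      refine h0.trans ?_
      have h1 : (⨆ i : ι, v ((0 : ι → A) i)) ^ N ≤ (⨆ a : Unit, v (f₁ a)) ^ 0 := by
        simp only [Pi.zero_apply, map_zero, Real.iSup_const_zero, pow_zero]
        exact pow_le_one₀ le_rfl zero_le_one
      exact mul_le_mul_of_nonneg_left h1
        (Cert.locConst_nonneg (le_trans zero_le_one hc) _ v)
  · have key := hT_le_of_locConst hc (Cert.famCoeffs p) N x
      (fun j => MvPolynomial.eval x (p j)) hx ?_
    · linarith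
    · intro A _ f g Γ' hf hg hΓ v
      have hx' : (fun i => (f i : AlgebraicClosure ℚ)) = x := funext hf
      refine eval_local_bound p hp A f g Γ' (fun j => ?_) hΓ v
      rw [hg j, hx']

/-- **Height of the image under a polynomial map**: `hT (p(x)) ≤ C + N * hT x`. -/
theorem hT_eval_le {N : ℕ} (p : ι' → MvPolynomial ι (AlgebraicClosure ℚ))
    (hp : ∀ j, (p j).IsHomogeneous N) :
    ∃ C : ℝ, ∀ x : ι → AlgebraicClosure ℚ,
      hT (fun j => MvPolynomial.eval x (p j)) ≤ C + N * hT x :=
  ⟨_, hT_eval_le_explicit p hp⟩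

end Fermat.Agent.S17.H
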