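import Mathlib

/-!
# Program MW, strand H: extending an admissible absolute value of a number field to `ℚ̄`

Every absolute value of a number field `L` that belongs to the admissible family of Mathlib's
height machine (the infinite and the finite places) extends, along any embedding
`f : L →+* AlgebraicClosure ℚ`, to an absolute value of the algebraic closure of the rationals,
and the extension of a nonarchimedean absolute value is nonarchimedean.

* archimedean case: the place is `‖φ ·‖` for a complex embedding `φ`; lift `φ` along `f`;
* nonarchimedean case: the place is `‖ι ·‖` for the embedding `ι` of `L` into its completion at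
  a prime; the spectral norm on an algebraic closure of the completion is a multiplicative
  nonarchimedean norm extending the norm of the completion; lift again.
-/

set_option autoImplicit false

namespace Fermat.Agent.S17.H.AbsExtTwin

open NumberField

/-- The algebraic closure of ℚ is algebraic over any field of characteristic zero mapping to
it. -/
theorem isAlgebraic_of_ringHom {L : Type*} [Field L] [CharZero L]
    (f : L →+* AlgebraicClosure ℚ) :
    letI := f.toAlgebra
    Algebra.IsAlgebraic L (AlgebraicClosure ℚ) := by
  letI := f.toAlgebra
  haveI : IsScalarTower ℚ L (AlgebraicClosure ℚ) :=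
    IsScalarTower.of_algebraMap_eq fun q => by
      rw [RingHom.algebraMap_toAlgebra]
      exact RingHom.congr_fun
        (Subsingleton.elim (algebraMap ℚ (AlgebraicClosure ℚ)) (f.comp (algebraMap ℚ L))) q
  exact ⟨fun x => ((AlgebraicClosure.isAlgebraic ℚ).isAlgebraic x).tower_top L⟩

/-- A ring homomorphism `φ` of `L` into a complete ultrametric nontrivially normed field `K`
gives, along any `f : L →+* AlgebraicClosure ℚ`, a nonarchimedean absolute value of the algebraic
closure of ℚ restricting to `‖φ ·‖`: the spectral norm of an algebraic closure of `K`, pulled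
back along a lift of `φ`. -/
theorem exists_absoluteValue_of_ringHom_complete {L : Type*} [Field L] [CharZero L]
    {K : Type*} [NontriviallyNormedField K] [IsUltrametricDist K] [CompleteSpace K]
    (f : L →+* AlgebraicClosure ℚ) (φ : L →+* K) :
    ∃ v' : AbsoluteValue (AlgebraicClosure ℚ) ℝ,
      (∀ x, v' (f x) = ‖φ x‖) ∧ IsNonarchimedean v' := by
  letI := f.toAlgebra
  letI : Algebra L (AlgebraicClosure K) :=
    ((algebraMap K (AlgebraicClosure K)).comp φ).toAlgebra
  haveI : Algebra.IsAlgebraic L (AlgebraicClosure ℚ) := isAlgebraic_of_ringHom f
  let g : AlgebraicClosure ℚ →ₐ[L] AlgebraicClosure K := IsAlgClosed.lift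
  let v' : AbsoluteValue (AlgebraicClosure ℚ) ℝ :=
    { toFun := fun x => spectralNorm K (AlgebraicClosure K) (g x)
      map_mul' := fun x y => by
        rw [map_mul, ← spectralMulAlgNorm_def, ← spectralMulAlgNorm_def, ← spectralMulAlgNorm_def,
          map_mul]
      nonneg' := fun x => spectralNorm_nonneg _
      eq_zero' := fun x => by
        constructor
        · intro h
          have h0 : g x = 0 :=
            eq_zero_of_map_spectralNorm_eq_zero h (Algebra.IsAlgebraic.isAlgebraic _)
          exact (map_eq_zero_iff g g.injective).mp h0
        · rintro rfl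
          rw [map_zero, spectralNorm_zero]
      add_le' := fun x y => by
        rw [map_add]
        exact IsNonarchimedean.add_le spectralNorm_nonneg isNonarchimedean_spectralNorm }
  refine ⟨v', fun x => ?_, fun x y => ?_⟩
  · have h1 : g (f x) = algebraMap K (AlgebraicClosure K) (φ x) := g.commutes x
    show spectralNorm K (AlgebraicClosure K) (g (f x)) = ‖φ x‖
    rw [h1, spectralNorm_extends]
  · show spectralNorm K (AlgebraicClosure K) (g (x + y)) ≤
      max (spectralNorm K (AlgebraicClosure K) (g x)) (spectralNorm K (AlgebraicClosure K) (g y))
    rw [map_add]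
    exact isNonarchimedean_spectralNorm (g x) (g y)

/-- EXT: an admissible absolute value of a number field extends to the algebraic closure of ℚ. -/
theorem exists_absoluteValue_extension {L : Type*} [Field L] [NumberField L]
    (f : L →+* AlgebraicClosure ℚ) (v : AbsoluteValue L ℝ)
    (hv : v ∈ Height.AdmissibleAbsValues.archAbsVal ∨
      v ∈ Height.AdmissibleAbsValues.nonarchAbsVal) :
    ∃ v' : AbsoluteValue (AlgebraicClosure ℚ) ℝ,
      (∀ x, v' (f x) = v x) ∧ (IsNonarchimedean v → IsNonarchimedean v') := by
  rcases hv with hv | hv
  · -- archimedean: `v = ‖φ ·‖` for a complex embedding `φ`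
    obtain ⟨φ, rfl⟩ : IsInfinitePlace v := mem_multisetInfinitePlace.mp hv
    letI := f.toAlgebra
    letI : Algebra L ℂ := φ.toAlgebra
    haveI : Algebra.IsAlgebraic L (AlgebraicClosure ℚ) := isAlgebraic_of_ringHom f
    let g : AlgebraicClosure ℚ →ₐ[L] ℂ := IsAlgClosed.lift
    refine ⟨place g.toRingHom, fun x => ?_, fun hna => ?_⟩
    · have h1 : g (f x) = φ x := g.commutes x
      show ‖g (f x)‖ = ‖φ x‖
      rw [h1]
    · exfalso
      have h2 := hna 1 1
      simp only [place_apply, map_add, map_one, max_self] at h2
      norm_num at h2
  · -- nonarchimedean: `v = ‖ι ·‖` for the embedding into the completion at a prime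
    obtain ⟨w, rfl⟩ : IsFinitePlace v := hv
    letI : NontriviallyNormedField (w.adicCompletion L) :=
      Valued.toNontriviallyNormedField (w.adicCompletion L) (WithZero (Multiplicative ℤ))
    obtain ⟨v', h1, h2⟩ :=
      exists_absoluteValue_of_ringHom_complete (K := w.adicCompletion L) f
        (FinitePlace.embedding w)
    exact ⟨v', fun x => by rw [h1]; rfl, fun _ => h2⟩

end Fermat.Agent.S17.H.AbsExtTwin
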