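import Mathlib

/-!
# Program MW, strand H, block A6 (core): from local bounds to a height inequality

In a field with an admissible family of absolute values, a bound
`⨆ b, v (g b) ≤ C(v) * (⨆ a, v (f a)) ^ N` at every absolute value `v`, with `C(v)` of product
type (a combinatorial constant `c` at the archimedean places, and a product of powers of
`max 1 (v (γ j))` for a fixed finite list `γ` at every place), gives
`logHeight g ≤ N * logHeight f + totalWeight K * log c + e * ∑ j, logHeight₁ (γ j)`.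
-/

set_option autoImplicit false

namespace Fermat.Agent.S17.H.LocalGlobalCore

open Height Height.AdmissibleAbsValues Function

variable {K : Type*} [Field K] [AdmissibleAbsValues K]

/-- Finite multiplicative support of `v ↦ ⨆ i, v (x i)` over the nonarchimedean absolute values,
for a nonzero tuple. -/
lemma hasFiniteMulSupport_iSup {ι : Type*} [Finite ι] {x : ι → K} (hx : x ≠ 0) :
    (fun v : nonarchAbsVal (K := K) ↦ ⨆ i, v.val (x i)).HasFiniteMulSupport := by
  have hne : Nonempty {j // x j ≠ 0} := nonempty_subtype.mpr <| Function.ne_iff.mp hx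
  have key : (fun v : nonarchAbsVal (K := K) ↦
      ⨆ i : {j // x j ≠ 0}, v.val (x i)).HasFiniteMulSupport :=
    HasFiniteMulSupport.iSup fun j ↦ hasFiniteMulSupport j.2
  have heq : (fun v : nonarchAbsVal (K := K) ↦ ⨆ i, v.val (x i)) =
      fun v : nonarchAbsVal (K := K) ↦ ⨆ i : {j // x j ≠ 0}, v.val (x i) := by
    funext v
    obtain ⟨i, hi⟩ : ∃ j, x j ≠ 0 := Function.ne_iff.mp hx
    have : Nonempty ι := ⟨i⟩
    refine le_antisymm (ciSup_le fun j ↦ ?_) (ciSup_le fun ⟨j, hj⟩ ↦ Finite.le_ciSup_of_le j le_rfl)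
    rcases eq_or_ne (x j) 0 with h | h
    · rw [h, v.val.map_zero]
      exact Real.iSup_nonneg' ⟨⟨i, hi⟩, v.val.nonneg _⟩
    · exact Finite.le_ciSup_of_le (⟨j, h⟩ : {j // x j ≠ 0}) le_rfl
  rw [heq]
  exact key

/-- Finite multiplicative support of `v ↦ max 1 (v x)`. -/
lemma hasFiniteMulSupport_max_one (x : K) :
    (fun v : nonarchAbsVal (K := K) ↦ max 1 (v.val x)).HasFiniteMulSupport := by
  rcases eq_or_ne x 0 with rfl | hx
  · have : (fun v : nonarchAbsVal (K := K) ↦ max 1 (v.val (0 : K))) = fun _ ↦ 1 := by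
      funext v; simp
    rw [this]
    exact hasFiniteMulSupport_one
  · exact HasFiniteMulSupport.max hasFiniteMulSupport_one (hasFiniteMulSupport hx)

/-- `mulHeight₁` with `max 1 (v x)` instead of `max (v x) 1`. -/
lemma mulHeight₁_eq' (x : K) :
    mulHeight₁ x =
      (archAbsVal.map fun v ↦ max 1 (v x)).prod *
        ∏ᶠ v : nonarchAbsVal (K := K), max 1 (v.val x) := by
  rw [mulHeight₁_eq]
  simp only [max_comm]

/-- The multiplicative form of the local-global assembly. -/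
theorem mulHeight_le_of_local {ι ι' : Type*} [Finite ι] [Finite ι'] {m : ℕ} (γ : Fin m → K)
    {c : ℝ} (hc : 1 ≤ c) (e N : ℕ) (f : ι → K) (g : ι' → K) (hf : f ≠ 0)
    (harch : ∀ v ∈ archAbsVal (K := K),
      ⨆ b, v (g b) ≤ c * (∏ j, max 1 (v (γ j)) ^ e) * (⨆ a, v (f a)) ^ N)
    (hnon : ∀ v ∈ nonarchAbsVal (K := K),
      ⨆ b, v (g b) ≤ (∏ j, max 1 (v (γ j)) ^ e) * (⨆ a, v (f a)) ^ N) :
    mulHeight g ≤ c ^ totalWeight K * (∏ j, mulHeight₁ (γ j) ^ e) * mulHeight f ^ N := by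
  have hc0 : (0 : ℝ) ≤ c := zero_le_one.trans hc
  rcases eq_or_ne g 0 with rfl | hg
  · rw [mulHeight_zero]
    have h1 : (1 : ℝ) ≤ c ^ totalWeight K := one_le_pow₀ hc
    have h2 : (1 : ℝ) ≤ ∏ j, mulHeight₁ (γ j) ^ e :=
      Finset.one_le_prod fun j _ ↦ one_le_pow₀ (one_le_mulHeight₁ (γ j))
    have h3 : (1 : ℝ) ≤ mulHeight f ^ N := one_le_pow₀ (one_le_mulHeight f)
    calc (1 : ℝ) = 1 * 1 * 1 := by norm_num
      _ ≤ c ^ totalWeight K * (∏ j, mulHeight₁ (γ j) ^ e) * mulHeight f ^ N := by gcongr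
  -- the archimedean factors
  have hA : (archAbsVal.map fun v ↦ ⨆ b, v (g b)).prod ≤
      c ^ totalWeight K * (∏ j, (archAbsVal.map fun v ↦ max 1 (v (γ j))).prod ^ e) *
        (archAbsVal.map fun v ↦ ⨆ a, v (f a)).prod ^ N := by
    have h1 : (archAbsVal.map fun v ↦ ⨆ b, v (g b)).prod ≤
        (archAbsVal.map fun v : AbsoluteValue K ℝ ↦
          c * (∏ j, max 1 (v (γ j)) ^ e) * (⨆ a, v (f a)) ^ N).prod :=
      Multiset.prod_map_le_prod_map₀ _ _ (fun v _ ↦ Real.iSup_nonneg fun b ↦ v.nonneg _) harch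
    refine h1.trans_eq ?_
    rw [Multiset.prod_map_mul, Multiset.prod_map_mul, Multiset.map_const', Multiset.prod_replicate,
      Multiset.prod_map_pow, Multiset.prod_map_prod]
    simp only [Multiset.prod_map_pow, totalWeight]
  -- the nonarchimedean factors
  have hB : ∏ᶠ v : nonarchAbsVal (K := K), ⨆ b, v.val (g b) ≤
      (∏ j, (∏ᶠ v : nonarchAbsVal (K := K), max 1 (v.val (γ j))) ^ e) *
        (∏ᶠ v : nonarchAbsVal (K := K), ⨆ a, v.val (f a)) ^ N := by
    have hγ : ∀ j, (fun v : nonarchAbsVal (K := K) ↦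
        max 1 (v.val (γ j)) ^ e).HasFiniteMulSupport :=
      fun j ↦ (hasFiniteMulSupport_max_one (γ j)).fun_pow e
    have hγ' : (fun v : nonarchAbsVal (K := K) ↦
        ∏ j, max 1 (v.val (γ j)) ^ e).HasFiniteMulSupport :=
      HasFiniteMulSupport.prod hγ Finset.univ
    have hfN : (fun v : nonarchAbsVal (K := K) ↦ (⨆ a, v.val (f a)) ^ N).HasFiniteMulSupport :=
      (hasFiniteMulSupport_iSup hf).fun_pow N
    have h1 : ∏ᶠ v : nonarchAbsVal (K := K), ⨆ b, v.val (g b) ≤
        ∏ᶠ v : nonarchAbsVal (K := K),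
          (∏ j, max 1 (v.val (γ j)) ^ e) * (⨆ a, v.val (f a)) ^ N :=
      finprod_le_finprod (hasFiniteMulSupport_iSup hg)
        (fun v ↦ Real.iSup_nonneg fun b ↦ v.val.nonneg _) (hγ'.fun_mul hfN)
        (fun v ↦ hnon v.val v.prop)
    refine h1.trans_eq ?_
    rw [finprod_mul_distrib hγ' hfN, ← finprod_pow (hasFiniteMulSupport_iSup hf),
      finprod_prod_comm _ _ (fun j _ ↦ hγ j)]
    congr 1
    refine Finset.prod_congr rfl fun j _ ↦ ?_
    rw [finprod_pow (hasFiniteMulSupport_max_one (γ j))]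
  rw [mulHeight_eq hg, mulHeight_eq hf]
  have hA0 : 0 ≤ (archAbsVal.map fun v ↦ ⨆ b, v (g b)).prod :=
    Multiset.prod_map_nonneg fun v _ ↦ Real.iSup_nonneg fun b ↦ v.nonneg _
  have hB0 : 0 ≤ ∏ᶠ v : nonarchAbsVal (K := K), ⨆ b, v.val (g b) :=
    finprod_nonneg fun v ↦ Real.iSup_nonneg fun b ↦ v.val.nonneg _
  calc (archAbsVal.map fun v ↦ ⨆ b, v (g b)).prod * ∏ᶠ v : nonarchAbsVal (K := K), ⨆ b, v.val (g b)
      ≤ (c ^ totalWeight K * (∏ j, (archAbsVal.map fun v ↦ max 1 (v (γ j))).prod ^ e) *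
          (archAbsVal.map fun v ↦ ⨆ a, v (f a)).prod ^ N) *
        ((∏ j, (∏ᶠ v : nonarchAbsVal (K := K), max 1 (v.val (γ j))) ^ e) *
          (∏ᶠ v : nonarchAbsVal (K := K), ⨆ a, v.val (f a)) ^ N) :=
        mul_le_mul hA hB hB0 (hA0.trans hA)
    _ = c ^ totalWeight K * (∏ j, mulHeight₁ (γ j) ^ e) *
          ((archAbsVal.map fun v ↦ ⨆ a, v (f a)).prod *
            ∏ᶠ v : nonarchAbsVal (K := K), ⨆ a, v.val (f a)) ^ N := by
        simp only [mulHeight₁_eq', mul_pow, Finset.prod_mul_distrib]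
        ring

/-- **Local-global assembly** (block A6, core): local bounds of product type at every absolute
value give an inequality of logarithmic heights. -/
theorem logHeight_le_of_local {ι ι' : Type*} [Finite ι] [Finite ι'] {m : ℕ} (γ : Fin m → K)
    {c : ℝ} (hc : 1 ≤ c) (e N : ℕ) (f : ι → K) (g : ι' → K) (hf : f ≠ 0)
    (harch : ∀ v ∈ archAbsVal (K := K),
      ⨆ b, v (g b) ≤ c * (∏ j, max 1 (v (γ j)) ^ e) * (⨆ a, v (f a)) ^ N)
    (hnon : ∀ v ∈ nonarchAbsVal (K := K),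
      ⨆ b, v (g b) ≤ (∏ j, max 1 (v (γ j)) ^ e) * (⨆ a, v (f a)) ^ N) :
    logHeight g ≤ N * logHeight f + totalWeight K * Real.log c + e * ∑ j, logHeight₁ (γ j) := by
  have hc0 : (0 : ℝ) < c := zero_lt_one.trans_le hc
  have h := mulHeight_le_of_local γ hc e N f g hf harch hnon
  have hpos : ∀ j, (0 : ℝ) < mulHeight₁ (γ j) ^ e := fun j ↦ pow_pos (mulHeight₁_pos _) _
  have hprod : (0 : ℝ) < ∏ j, mulHeight₁ (γ j) ^ e := Finset.prod_pos fun j _ ↦ hpos j
  have hfpos : (0 : ℝ) < mulHeight f ^ N := pow_pos (mulHeight_pos f) _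
  have hcpos : (0 : ℝ) < c ^ totalWeight K := pow_pos hc0 _
  rw [logHeight_eq_log_mulHeight]
  refine (Real.log_le_log (mulHeight_pos g) h).trans_eq ?_
  rw [Real.log_mul (mul_pos hcpos hprod).ne' hfpos.ne', Real.log_mul hcpos.ne' hprod.ne',
    Real.log_pow, Real.log_pow, Real.log_prod (fun j _ ↦ (hpos j).ne'), Finset.mul_sum]
  simp only [Real.log_pow, logHeight_eq_log_mulHeight, logHeight₁_eq_log_mulHeight₁]
  ring

/-- **Local-global assembly, multiset form**: the constants are products over a multiset `Γ` of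
elements of `K` (the shape `c * ∏ γ ∈ Γ, max 1 (v γ)` at the archimedean absolute values and
`∏ γ ∈ Γ, max 1 (v γ)` at the nonarchimedean ones). -/
theorem logHeight_le_of_local_multiset {ι ι' : Type*} [Finite ι] [Finite ι'] (Γ : Multiset K)
    {c : ℝ} (hc : 1 ≤ c) (N : ℕ) (f : ι → K) (g : ι' → K) (hf : f ≠ 0)
    (harch : ∀ v ∈ archAbsVal (K := K),
      ⨆ b, v (g b) ≤ c * (Γ.map fun γ ↦ max 1 (v γ)).prod * (⨆ a, v (f a)) ^ N)
    (hnon : ∀ v ∈ nonarchAbsVal (K := K),
      ⨆ b, v (g b) ≤ (Γ.map fun γ ↦ max 1 (v γ)).prod * (⨆ a, v (f a)) ^ N) :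
    logHeight g ≤ N * logHeight f + totalWeight K * Real.log c + (Γ.map logHeight₁).sum := by
  induction Γ using Quotient.inductionOn with
  | _ l =>
    have hP : ∀ v : AbsoluteValue K ℝ,
        (∏ j : Fin l.length, max 1 (v l[j.1]) ^ 1) = (l.map fun γ ↦ max 1 (v γ)).prod := by
      intro v
      simp only [pow_one]
      exact Fin.prod_univ_fun_getElem l fun γ ↦ max 1 (v γ)
    have hS : (∑ j : Fin l.length, logHeight₁ l[j.1]) = (l.map logHeight₁).sum :=
      Fin.sum_univ_fun_getElem l logHeight₁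
    have key := logHeight_le_of_local (fun j : Fin l.length ↦ l[j.1]) hc 1 N f g hf
      (fun v hv ↦ by
        rw [hP v]
        simpa only [Multiset.quot_mk_to_coe, Multiset.map_coe, Multiset.prod_coe] using harch v hv)
      (fun v hv ↦ by
        rw [hP v]
        simpa only [Multiset.quot_mk_to_coe, Multiset.map_coe, Multiset.prod_coe] using hnon v hv)
    rw [hS] at key
    simpa only [Multiset.quot_mk_to_coe, Multiset.map_coe, Multiset.sum_coe, Nat.cast_one,
      one_mul] using key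

end Fermat.Agent.S17.H.LocalGlobalCore
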