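import Fermat.Agent.S17.H.A.Abs
import Fermat.Agent.S17.H.A.LocalGlobalCore
import Fermat.Agent.S17.H.Cert.LocConst

/-!
# Program MW, strand H, block A6 (Qb seam, core): local bounds at every absolute value of the
algebraic closure of ℚ give an inequality of absolute heights

Blocks B and C produce local bounds `⨆ b, v (G b) ≤ Cert.locConst c Γ v * (⨆ a, v (F a)) ^ N` for
EVERY absolute value `v` of the algebraic closure of ℚ (data `F`, `G`, `Γ` there). The product
formula lives in number fields. The seam is the extension statement `ExtStatement` (every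
absolute value of the admissible family of a number field inside the algebraic closure of ℚ is
the restriction of an absolute value of the algebraic closure, nonarchimedean if the given one
is). This file proves, from `ExtStatement`,

`hT G ≤ N * hT F + log c + ∑ γ ∈ Γ, hQ γ`.
-/

set_option autoImplicit false

namespace Fermat.Agent.S17.H.LocConstQb

open Height Height.AdmissibleAbsValues NumberField Module

/-- **(EXT)** at the number fields inside the algebraic closure of ℚ: every absolute value of the
admissible family of such a field is the restriction of an absolute value of the algebraic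
closure of ℚ, which is nonarchimedean if the given one is. -/
def ExtStatement : Prop :=
  ∀ (A : IntermediateField ℚ (AlgebraicClosure ℚ)) [NumberField A] (v : AbsoluteValue A ℝ),
    (v ∈ archAbsVal (K := A) ∨ v ∈ nonarchAbsVal (K := A)) →
    ∃ v' : AbsoluteValue (AlgebraicClosure ℚ) ℝ,
      (∀ x : A, v' (x : AlgebraicClosure ℚ) = v x) ∧ (IsNonarchimedean v → IsNonarchimedean v')

/-- A sum of quotients by a fixed number. -/
theorem list_sum_map_div {α : Type*} (l : List α) (d : ℝ) (φ : α → ℝ) :
    (l.map fun γ => φ γ / d).sum = (l.map φ).sum / d := by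
  induction l with
  | nil => simp
  | cons a l ih => simp only [List.map_cons, List.sum_cons, ih, add_div]

/-- The product part of a local constant, for a list of elements of a subfield and an absolute
value of the big field restricting to a given one. -/
theorem gamProd_map_coe (A : IntermediateField ℚ (AlgebraicClosure ℚ)) (l : List A)
    (v : AbsoluteValue A ℝ) (v' : AbsoluteValue (AlgebraicClosure ℚ) ℝ)
    (hv' : ∀ x : A, v' (x : AlgebraicClosure ℚ) = v x) :
    Cert.gamProd (Multiset.ofList (l.map fun γ : A => (γ : AlgebraicClosure ℚ))) v' =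
      ((Multiset.ofList l).map fun γ => max 1 (v γ)).prod := by
  unfold Cert.gamProd
  rw [Multiset.map_coe, Multiset.map_coe, List.map_map]
  have h1 : ((fun γ : AlgebraicClosure ℚ => max 1 (v' γ)) ∘
      fun γ : A => (γ : AlgebraicClosure ℚ)) = fun γ : A => max 1 (v γ) :=
    funext fun γ => by simp only [Function.comp_apply, hv']
  rw [h1]

variable {ι ι' : Type*} [Finite ι] [Finite ι']

/-- The seam inside one number field: data in `A`, local bounds at the absolute values of the
algebraic closure of ℚ. -/
theorem hT_le_of_locConst_abv_coe (hext : ExtStatement)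
    (A : IntermediateField ℚ (AlgebraicClosure ℚ)) [NumberField A]
    {c : ℝ} (hc : 1 ≤ c) (l : List A) (N : ℕ) (f : ι → A) (g : ι' → A) (hf : f ≠ 0)
    (h : ∀ v : AbsoluteValue (AlgebraicClosure ℚ) ℝ,
      (⨆ b, v (g b : AlgebraicClosure ℚ)) ≤
        Cert.locConst c (Multiset.ofList (l.map fun γ : A => (γ : AlgebraicClosure ℚ))) v *
          (⨆ a, v (f a : AlgebraicClosure ℚ)) ^ N) :
    hT (fun b => (g b : AlgebraicClosure ℚ)) ≤
      N * hT (fun a => (f a : AlgebraicClosure ℚ)) + Real.log c +
        (l.map fun γ : A => hQ (γ : AlgebraicClosure ℚ)).sum := by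
  have key : logHeight g ≤ N * logHeight f + totalWeight A * Real.log c +
      ((Multiset.ofList l).map logHeight₁).sum := by
    refine LocalGlobalCore.logHeight_le_of_local_multiset (Multiset.ofList l) hc N f g hf ?_ ?_
    · intro v hv
      obtain ⟨v', hv', -⟩ := hext A v (Or.inl hv)
      have h1 := h v'
      simp only [hv'] at h1
      have hS : 0 ≤ (⨆ a, v (f a)) ^ N := pow_nonneg (Real.iSup_nonneg fun i => v.nonneg _) N
      refine h1.trans ?_
      rw [← gamProd_map_coe A l v v' hv']
      exact mul_le_mul_of_nonneg_right (Cert.locConst_le hc _ v') hS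
    · intro v hv
      obtain ⟨v', hv', hna⟩ := hext A v (Or.inr hv)
      have h1 := h v'
      simp only [hv'] at h1
      refine h1.trans (le_of_eq ?_)
      rw [Cert.locConst_of_nonarch (hna (isNonarchimedean v hv)), gamProd_map_coe A l v v' hv']
  have hd : (0 : ℝ) < (finrank ℚ A : ℝ) := Nat.cast_pos.mpr Module.finrank_pos
  rw [NumberField.totalWeight_eq_finrank, Multiset.map_coe, Multiset.sum_coe] at key
  have hs : (l.map fun γ : A => hQ (γ : AlgebraicClosure ℚ)).sum =
      (l.map logHeight₁).sum / (finrank ℚ A : ℝ) := by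
    simp only [hQ_coe]
    exact list_sum_map_div l _ _
  rw [hs, hT_coe, hT_coe, div_le_iff₀ hd]
  have h2 : (↑N * (logHeight f / (finrank ℚ A : ℝ)) + Real.log c +
      (l.map logHeight₁).sum / (finrank ℚ A : ℝ)) * (finrank ℚ A : ℝ) =
      N * logHeight f + (finrank ℚ A : ℝ) * Real.log c + (l.map logHeight₁).sum := by
    field_simp
  rw [h2]
  exact key

/-- **Local-global assembly over the algebraic closure of ℚ** (from the extension statement):
local bounds with the constants `Cert.locConst c Γ v` at EVERY absolute value `v` of the algebraic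
closure of ℚ give `hT G ≤ N * hT F + log c + ∑ γ ∈ Γ, hQ γ`. -/
theorem hT_le_of_locConst_abv_of_ext (hext : ExtStatement) {c : ℝ} (hc : 1 ≤ c)
    (Γ : Multiset (AlgebraicClosure ℚ)) (N : ℕ) (F : ι → AlgebraicClosure ℚ)
    (G : ι' → AlgebraicClosure ℚ) (hF : F ≠ 0)
    (h : ∀ v : AbsoluteValue (AlgebraicClosure ℚ) ℝ,
      (⨆ b, v (G b)) ≤ Cert.locConst c Γ v * (⨆ a, v (F a)) ^ N) :
    hT G ≤ N * hT F + Real.log c + (Γ.map hQ).sum := by
  obtain ⟨l0, rfl⟩ : ∃ l : List (AlgebraicClosure ℚ), (l : Multiset (AlgebraicClosure ℚ)) = Γ :=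
    ⟨Γ.toList, Γ.coe_toList⟩
  obtain ⟨A, hA, z, hz⟩ :=
    exists_lift_Qb (Sum.elim F (Sum.elim G (fun j : Fin l0.length => l0[j.1])))
  obtain ⟨f, hf⟩ : ∃ f : ι → A, ∀ a, (f a : AlgebraicClosure ℚ) = F a :=
    ⟨fun a => z (Sum.inl a), fun a => hz (Sum.inl a)⟩
  obtain ⟨g, hg⟩ : ∃ g : ι' → A, ∀ b, (g b : AlgebraicClosure ℚ) = G b :=
    ⟨fun b => z (Sum.inr (Sum.inl b)), fun b => hz (Sum.inr (Sum.inl b))⟩
  obtain ⟨l, hl⟩ : ∃ l : List A, l.map (fun γ : A => (γ : AlgebraicClosure ℚ)) = l0 := by
    refine ⟨List.ofFn fun j : Fin l0.length => z (Sum.inr (Sum.inr j)), ?_⟩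
    rw [List.map_ofFn]
    have h1 : ((fun γ : A => (γ : AlgebraicClosure ℚ)) ∘ fun j : Fin l0.length =>
        z (Sum.inr (Sum.inr j))) = fun j : Fin l0.length => l0[j.1] :=
      funext fun j => hz (Sum.inr (Sum.inr j))
    rw [h1, List.ofFn_getElem]
  have hf0 : f ≠ 0 := by
    intro h0
    apply hF
    funext a
    rw [← hf a, h0]
    rfl
  have e1 : (fun b => (g b : AlgebraicClosure ℚ)) = G := funext hg
  have e2 : (fun a => (f a : AlgebraicClosure ℚ)) = F := funext hf
  have key := hT_le_of_locConst_abv_coe hext A hc l N f g hf0 (by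
    intro v
    rw [hl]
    simpa only [hf, hg] using h v)
  have e3 : (l.map fun γ : A => hQ (γ : AlgebraicClosure ℚ)) = l0.map hQ := by
    rw [← hl, List.map_map]
    rfl
  rw [e1, e2, e3] at key
  rwa [Multiset.map_coe, Multiset.sum_coe]

/-- The absolute height of the coordinatewise `n`-th power of a tuple. -/
theorem hT_pow {κ : Type*} [Finite κ] (x : κ → AlgebraicClosure ℚ) (n : ℕ) :
    hT (fun i => x i ^ n) = n * hT x := by
  obtain ⟨A, hA, z, hz⟩ := exists_lift_Qb x
  have e1 : x = fun i => (z i : AlgebraicClosure ℚ) := funext fun i => (hz i).symm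
  have e2 : (fun i => x i ^ n) = fun i => (((z ^ n) i : A) : AlgebraicClosure ℚ) := by
    funext i
    rw [← hz i]
    simp
  rw [e2, hT_coe, logHeight_pow, e1, hT_coe]
  ring

/-- The two-sided form: an upper and a lower local bound give `|hT G - N * hT F| ≤ const`. -/
theorem abs_hT_sub_le_of_locConst_abv_of_ext (hext : ExtStatement) {c c' : ℝ} (hc : 1 ≤ c)
    (hc' : 1 ≤ c') (Γ Γ' : Multiset (AlgebraicClosure ℚ)) (N : ℕ)
    (F : ι → AlgebraicClosure ℚ) (G : ι' → AlgebraicClosure ℚ) (hF : F ≠ 0) (hG : G ≠ 0)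
    (hup : ∀ v : AbsoluteValue (AlgebraicClosure ℚ) ℝ,
      (⨆ b, v (G b)) ≤ Cert.locConst c Γ v * (⨆ a, v (F a)) ^ N)
    (hlow : ∀ v : AbsoluteValue (AlgebraicClosure ℚ) ℝ,
      (⨆ a, v (F a)) ^ N ≤ Cert.locConst c' Γ' v * (⨆ b, v (G b))) :
    |hT G - N * hT F| ≤
      max (Real.log c + (Γ.map hQ).sum) (Real.log c' + (Γ'.map hQ).sum) := by
  have h1 := hT_le_of_locConst_abv_of_ext hext hc Γ N F G hF hup
  -- the lower bound: `F ^ N` against `G`
  have h2 : hT (fun a => F a ^ N) ≤ 1 * hT G + Real.log c' + (Γ'.map hQ).sum := by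
    have := hT_le_of_locConst_abv_of_ext hext hc' Γ' 1 G (fun a => F a ^ N) hG (by
      intro v
      have h3 : (⨆ a, v (F a ^ N)) = (⨆ a, v (F a)) ^ N := by
        simp only [map_pow]
        rcases isEmpty_or_nonempty ι with he | hne
        · exfalso
          exact hF (funext fun a => (he.false a).elim)
        · exact (Real.iSup_pow (fun a => v.nonneg _) N).symm
      rw [h3, pow_one]
      exact hlow v)
    simpa using this
  rw [hT_pow] at h2
  rw [abs_le]
  constructor
  · have := le_max_right (Real.log c + (Γ.map hQ).sum) (Real.log c' + (Γ'.map hQ).sum)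
    linarith
  · have := le_max_left (Real.log c + (Γ.map hQ).sum) (Real.log c' + (Γ'.map hQ).sum)
    linarith

end Fermat.Agent.S17.H.LocConstQb
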