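/-
Program MW (statement S17), strand H, block A: the PRODUCT FORM of the local-global assembly.

A *local function* is a function `L` on the absolute values of `Qb = AlgebraicClosure ℚ`.
`HasHT L h` says that `L` is the sup-norm `v ↦ ⨆ i, v (x i)` of a nonzero tuple `x` of absolute
height `hT x = h`.  Such pairs `(L, h)` are closed under products (Segre: heights add), finite
products and powers, and a nonzero number `a` gives `(v ↦ v a, 0)`.  So the two sides of a local
inequality between products of sup-norms of tuples - the shape of every local estimate of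
strand H - are local functions with a height, built in one line, and `HasHT.le_of_locConst`
turns the inequality `L v ≤ locConst c Γ v * L' v` (all `v`) into `h ≤ h' + log c + ∑ hQ γ`.

The single-tuple local-global statement is leaf A6 in its `Qb` form
(`LocConstQb.hT_le_of_locConst_abv_of_ext`) together with the extension of the absolute values
of number fields to `Qb` (`AbsExtTwin.exists_absoluteValue_extension`).
-/
import Fermat.Agent.S17.H.A.LocConstQbCore
import Fermat.Agent.S17.H.A.AbsExtTwin

namespace Fermat.Agent.S17.H.ProdForm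

open Height Function

/-! ### Heights of Segre products over `Qb` -/

/-- The absolute height of the Segre product of two nonzero tuples is the sum of the heights. -/
theorem hT_fun_mul_eq {ι ι' : Type*} [Finite ι] [Finite ι'] {X : ι → AlgebraicClosure ℚ}
    (hX : X ≠ 0) {Y : ι' → AlgebraicClosure ℚ} (hY : Y ≠ 0) :
    hT (fun a : ι × ι' => X a.1 * Y a.2) = hT X + hT Y := by
  obtain ⟨A, hA, x, y, hx, hy⟩ := exists_lift₂_Qb X Y
  have h1 : X = fun i => (x i : AlgebraicClosure ℚ) := funext fun i => (hx i).symm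
  have h2 : Y = fun i => (y i : AlgebraicClosure ℚ) := funext fun i => (hy i).symm
  have hx0 : x ≠ 0 := by
    intro h
    apply hX
    rw [h1, h]
    rfl
  have hy0 : y ≠ 0 := by
    intro h
    apply hY
    rw [h2, h]
    rfl
  have h3 : (fun a : ι × ι' => X a.1 * Y a.2) =
      fun a : ι × ι' => ((x a.1 * y a.2 : A) : AlgebraicClosure ℚ) := by
    funext a
    rw [h1, h2]
    push_cast
    rfl
  rw [h3, hT_coe, logHeight_fun_mul_eq hx0 hy0, add_div, ← hT_coe, ← hT_coe, ← h1, ← h2]

/-- The absolute height of a nonzero `1`-tuple is `0`. -/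
theorem hT_unique {ι : Type*} [Finite ι] [Subsingleton ι] (X : ι → AlgebraicClosure ℚ) :
    hT X = 0 := by
  obtain ⟨A, hA, x, hx⟩ := exists_lift_Qb X
  have h1 : X = fun i => (x i : AlgebraicClosure ℚ) := funext fun i => (hx i).symm
  rw [h1, hT_coe, logHeight_eq_zero_of_subsingleton, zero_div]

/-! ### Local functions with a height -/

/-- `HasHT L h`: the local function `L` is the sup-norm of a nonzero tuple of absolute height
`h`. -/
def HasHT (L : AbsoluteValue (AlgebraicClosure ℚ) ℝ → ℝ) (h : ℝ) : Prop :=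
  ∃ (n : ℕ) (x : Fin n → AlgebraicClosure ℚ), x ≠ 0 ∧ (∀ v, L v = ⨆ i, v (x i)) ∧ hT x = h

/-- The sup-norm of a nonzero tuple, with its height. -/
theorem hasHT_tuple {ι : Type*} [Finite ι] {x : ι → AlgebraicClosure ℚ} (hx : x ≠ 0) :
    HasHT (fun v => ⨆ i, v (x i)) (hT x) := by
  let e := Finite.equivFin ι
  refine ⟨Nat.card ι, x ∘ e.symm, ?_, fun v => ?_, hT_comp_equiv e.symm x⟩
  · intro h
    apply hx
    funext i
    have := congrFun h (e i)
    simpa using this
  · exact e.iSup_congr fun i => by simp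

/-- A nonzero number, as a local function of height `0` (product formula). -/
theorem hasHT_scalar {a : AlgebraicClosure ℚ} (ha : a ≠ 0) : HasHT (fun v => v a) 0 := by
  refine ⟨1, fun _ => a, ?_, fun v => ?_, hT_unique _⟩
  · intro h
    exact ha (congrFun h 0)
  · rw [ciSup_const]

/-- The constant local function `1`, of height `0`. -/
theorem hasHT_one : HasHT (fun _ => 1) 0 := by
  refine ⟨1, fun _ => 1, ?_, fun v => ?_, hT_unique _⟩
  · intro h
    exact one_ne_zero (congrFun h 0)
  · rw [ciSup_const, map_one]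

theorem HasHT.congr {L L' : AbsoluteValue (AlgebraicClosure ℚ) ℝ → ℝ} {h h' : ℝ}
    (hL : HasHT L h) (hLL' : ∀ v, L' v = L v) (hh : h' = h) : HasHT L' h' := by
  obtain ⟨n, x, hx, hLx, hhx⟩ := hL
  exact ⟨n, x, hx, fun v => (hLL' v).trans (hLx v), hhx.trans hh.symm⟩

/-- A local function with a height is positive. -/
theorem HasHT.pos {L : AbsoluteValue (AlgebraicClosure ℚ) ℝ → ℝ} {h : ℝ} (hL : HasHT L h)
    (v : AbsoluteValue (AlgebraicClosure ℚ) ℝ) : 0 < L v := by
  obtain ⟨n, x, hx, hLx, -⟩ := hL
  obtain ⟨i, hi⟩ := ne_iff.mp hx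
  rw [hLx v]
  exact lt_of_lt_of_le (v.pos hi) (Finite.le_ciSup (fun i => v (x i)) i)

/-- Products: heights add. -/
theorem HasHT.mul {L L' : AbsoluteValue (AlgebraicClosure ℚ) ℝ → ℝ} {h h' : ℝ}
    (hL : HasHT L h) (hL' : HasHT L' h') : HasHT (fun v => L v * L' v) (h + h') := by
  obtain ⟨n, x, hx, hLx, rfl⟩ := hL
  obtain ⟨n', y, hy, hLy, rfl⟩ := hL'
  have hxy : (fun a : Fin n × Fin n' => x a.1 * y a.2) ≠ 0 := by
    obtain ⟨i, hi⟩ := ne_iff.mp hx
    obtain ⟨j, hj⟩ := ne_iff.mp hy
    exact ne_iff.mpr ⟨⟨i, j⟩, mul_ne_zero hi hj⟩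
  refine (hasHT_tuple hxy).congr (fun v => ?_) (hT_fun_mul_eq hx hy).symm
  rw [hLx v, hLy v]
  exact (Real.iSup_fun_mul_eq_iSup_mul_iSup_of_nonneg v x y).symm

/-- Finite products: heights add. -/
theorem HasHT.prod {κ : Type*} (s : Finset κ)
    {L : κ → AbsoluteValue (AlgebraicClosure ℚ) ℝ → ℝ} {h : κ → ℝ}
    (H : ∀ k ∈ s, HasHT (L k) (h k)) :
    HasHT (fun v => ∏ k ∈ s, L k v) (∑ k ∈ s, h k) := by
  classical
  induction s using Finset.induction_on with
  | empty => simpa using hasHT_one
  | insert a s ha ih =>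
    have h1 := (H a (Finset.mem_insert_self a s)).mul
      (ih fun k hk => H k (Finset.mem_insert_of_mem hk))
    exact h1.congr (fun v => Finset.prod_insert ha) (Finset.sum_insert ha)

/-- Powers: the height is multiplied by the exponent. -/
theorem HasHT.pow {L : AbsoluteValue (AlgebraicClosure ℚ) ℝ → ℝ} {h : ℝ} (hL : HasHT L h)
    (n : ℕ) : HasHT (fun v => L v ^ n) (n * h) := by
  have h1 := HasHT.prod (Finset.range n) (L := fun _ => L) (h := fun _ => h) fun _ _ => hL
  exact h1.congr (fun v => by simp) (by simp)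

/-! ### The local-global assembly in product form -/

/-- Every admissible absolute value of a number field inside `Qb` extends to `Qb`. -/
theorem extStatement : LocConstQb.ExtStatement := fun A _ v hv =>
  AbsExtTwin.exists_absoluteValue_extension (algebraMap A (AlgebraicClosure ℚ)) v hv

/-- **Local-global assembly, product form.**  If `L v ≤ locConst c Γ v * L' v` at every absolute
value `v` of `Qb`, for local functions `L`, `L'` with heights `h`, `h'`, then
`h ≤ h' + log c + ∑ γ ∈ Γ, hQ γ`. -/
theorem HasHT.le_of_locConst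
    {L L' : AbsoluteValue (AlgebraicClosure ℚ) ℝ → ℝ} {h h' : ℝ} (hL : HasHT L h)
    (hL' : HasHT L' h') {c : ℝ} (hc : 1 ≤ c) (Γ : Multiset (AlgebraicClosure ℚ))
    (hloc : ∀ v, L v ≤ Cert.locConst c Γ v * L' v) :
    h ≤ h' + Real.log c + (Γ.map hQ).sum := by
  obtain ⟨n, x, -, hLx, rfl⟩ := hL
  obtain ⟨n', y, hy, hLy, rfl⟩ := hL'
  have key := LocConstQb.hT_le_of_locConst_abv_of_ext extStatement hc Γ 1 y x hy fun v => by
    rw [← hLx v, ← hLy v, pow_one]
    exact hloc v
  rwa [Nat.cast_one, one_mul] at key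

/-- **Two-sided form**: local functions comparable up to `locConst c Γ v` in both directions have
heights differing by at most `log c + ∑ γ ∈ Γ, hQ γ`. -/
theorem HasHT.abs_sub_le
    {L L' : AbsoluteValue (AlgebraicClosure ℚ) ℝ → ℝ} {h h' : ℝ} (hL : HasHT L h)
    (hL' : HasHT L' h') {c : ℝ} (hc : 1 ≤ c) (Γ : Multiset (AlgebraicClosure ℚ))
    (hup : ∀ v, L v ≤ Cert.locConst c Γ v * L' v)
    (hdown : ∀ v, L' v ≤ Cert.locConst c Γ v * L v) :
    |h - h'| ≤ Real.log c + (Γ.map hQ).sum := by
  have h1 := hL.le_of_locConst hL' hc Γ hup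
  have h2 := hL'.le_of_locConst hL hc Γ hdown
  rw [abs_le]
  constructor <;> linarith

end Fermat.Agent.S17.H.ProdForm
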