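import Mathlib

/-!
# Program MW, strand H: the extension formula for heights on number fields

For number fields `K ⊆ L` and a tuple `x` of elements of `K`, the multiplicative height of `x`
computed in `L` is the `[L : K]`-th power of the height computed in `K`.
-/

set_option autoImplicit false

namespace Fermat.Agent.S17.H.Ext

open NumberField Height Module

variable {K L : Type*} [Field K] [NumberField K] [Field L] [NumberField L] [Algebra K L]
variable {ι : Type*}

open scoped Classical in
/-- The fibres of the restriction of complex embeddings from `L` to `K` have `[L : K]` elements. -/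
lemma card_filter_comp_algebraMap (ψ : K →+* ℂ) :
    (Finset.univ.filter fun φ : L →+* ℂ => φ.comp (algebraMap K L) = ψ).card = finrank K L := by
  let _ : Algebra K ℂ := ψ.toAlgebra
  rw [← AlgHom.card K L ℂ, ← Fintype.card_subtype]
  refine Fintype.card_congr ?_
  exact
    { toFun := fun φ =>
        { φ.1 with commutes' := fun r => RingHom.congr_fun φ.2 r }
      invFun := fun f => ⟨f.toRingHom, by ext r; exact f.commutes r⟩
      left_inv := fun φ => by ext; rfl
      right_inv := fun f => by ext; rfl }

/-- A product over the infinite places with multiplicities is a product over the complex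
embeddings. -/
lemma prod_infinitePlace_pow_mult (F : InfinitePlace K → ℝ) :
    ∏ w : InfinitePlace K, F w ^ w.mult = ∏ φ : K →+* ℂ, F (InfinitePlace.mk φ) := by
  classical
  rw [← Finset.prod_fiberwise Finset.univ InfinitePlace.mk (fun φ => F (InfinitePlace.mk φ))]
  refine Finset.prod_congr rfl fun w _ => ?_
  rw [Finset.prod_congr rfl (fun φ hφ => by rw [(Finset.mem_filter.mp hφ).2]), Finset.prod_const,
    InfinitePlace.card_filter_mk_eq]

/-- A product over the complex embeddings of `L` of a function of the restriction to `K`. -/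
lemma prod_embeddings_comp (G : (K →+* ℂ) → ℝ) :
    ∏ φ : L →+* ℂ, G (φ.comp (algebraMap K L)) = (∏ ψ : K →+* ℂ, G ψ) ^ finrank K L := by
  classical
  rw [← Finset.prod_fiberwise Finset.univ (fun φ : L →+* ℂ => φ.comp (algebraMap K L))
    (fun φ => G (φ.comp (algebraMap K L))), ← Finset.prod_pow]
  refine Finset.prod_congr rfl fun ψ _ => ?_
  rw [Finset.prod_congr rfl (fun φ hφ => by rw [(Finset.mem_filter.mp hφ).2]), Finset.prod_const,
    card_filter_comp_algebraMap]

/-- The archimedean part of the extension formula. -/
lemma prod_infinitePlace_algebraMap (x : ι → K) :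
    ∏ w : InfinitePlace L, (⨆ i, w (algebraMap K L (x i))) ^ w.mult =
      (∏ v : InfinitePlace K, (⨆ i, v (x i)) ^ v.mult) ^ finrank K L := by
  rw [prod_infinitePlace_pow_mult (fun w : InfinitePlace L => ⨆ i, w (algebraMap K L (x i))),
    prod_infinitePlace_pow_mult (fun v : InfinitePlace K => ⨆ i, v (x i)),
    ← prod_embeddings_comp (L := L) (fun ψ : K →+* ℂ => ⨆ i, InfinitePlace.mk ψ (x i))]
  rfl

/-- The non-archimedean part of the extension formula, for a non-zero integral tuple. -/
lemma finprod_finitePlace_algebraMap [Finite ι] (y : ι → 𝓞 K) (hy : y ≠ 0) :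
    ∏ᶠ w : FinitePlace L, ⨆ i, w (algebraMap K L (y i)) =
      (∏ᶠ v : FinitePlace K, ⨆ i, v (y i)) ^ finrank K L := by
  set z : ι → 𝓞 L := fun i => algebraMap (𝓞 K) (𝓞 L) (y i) with hzdef
  have hz : z ≠ 0 := by
    intro h
    apply hy
    funext i
    have := congr_fun h i
    simpa [hzdef] using this
  have h1 := absNorm_mul_finprod_finitePlace_eq_one hy
  have h2 := absNorm_mul_finprod_finitePlace_eq_one hz
  have h3 : Ideal.span (Set.range z) =
      (Ideal.span (Set.range y)).map (algebraMap (𝓞 K) (𝓞 L)) := by
    rw [Ideal.map_span, ← Set.range_comp]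
    rfl
  rw [h3, Ideal.absNorm_algebraMap, ← IsFractionRing.finrank_eq (𝓞 K) K (𝓞 L) L] at h2
  have h4 : (∏ᶠ w : FinitePlace L, ⨆ i, w (z i : L)) =
      ∏ᶠ w : FinitePlace L, ⨆ i, w (algebraMap K L (y i)) := rfl
  rw [← h4]
  have hN : ((Ideal.span (Set.range y)).absNorm : ℝ) ≠ 0 := by
    intro h
    rw [h, zero_mul] at h1
    exact zero_ne_one h1
  have h5 : (∏ᶠ v : FinitePlace K, ⨆ i, v (y i)) = ((Ideal.span (Set.range y)).absNorm : ℝ)⁻¹ :=
    eq_inv_of_mul_eq_one_right h1
  have h6 : (∏ᶠ w : FinitePlace L, ⨆ i, w (z i : L)) =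
      (((Ideal.span (Set.range y)).absNorm ^ finrank K L : ℕ) : ℝ)⁻¹ :=
    eq_inv_of_mul_eq_one_right h2
  rw [h5, h6, Nat.cast_pow, inv_pow]

/-- The extension formula for integral tuples. -/
lemma mulHeight_algebraMap_integer [Finite ι] (y : ι → 𝓞 K) :
    mulHeight (fun i => algebraMap K L (y i)) = mulHeight (fun i => (y i : K)) ^ finrank K L := by
  by_cases hy : y = 0
  · subst hy
    have hK : (fun i : ι => ((0 : ι → 𝓞 K) i : K)) = 0 := by funext i; simp
    have hL : (fun i : ι => algebraMap K L ((0 : ι → 𝓞 K) i : K)) = 0 := by funext i; simp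
    rw [hK, hL, mulHeight_zero, mulHeight_zero, one_pow]
  · have hK : (fun i : ι => (y i : K)) ≠ 0 := by
      intro h
      apply hy
      funext i
      have := congr_fun h i
      simpa using this
    have hL : (fun i : ι => algebraMap K L (y i : K)) ≠ 0 := by
      intro h
      apply hK
      funext i
      have := congr_fun h i
      simpa using this
    rw [NumberField.mulHeight_eq hL, NumberField.mulHeight_eq hK, prod_infinitePlace_algebraMap,
      finprod_finitePlace_algebraMap y hy, mul_pow]

/-- **The extension formula**: the height of a tuple of elements of `K`, computed in a finite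
extension `L`, is the `[L : K]`-th power of its height computed in `K`. -/
theorem mulHeight_algebraMap [Finite ι] (x : ι → K) :
    mulHeight (fun i => algebraMap K L (x i)) = mulHeight x ^ finrank K L := by
  classical
  cases nonempty_fintype ι
  obtain ⟨d, hd, hint⟩ := exists_integral_multiples ℤ ℚ (Finset.univ.image x)
  have hint' : ∀ i, IsIntegral ℤ ((d : K) * x i) := fun i => by
    have := hint (x i) (Finset.mem_image_of_mem x (Finset.mem_univ i))
    rwa [zsmul_eq_mul] at this
  set y : ι → 𝓞 K := fun i => ⟨(d : K) * x i, hint' i⟩ with hy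
  have hdK : (d : K) ≠ 0 := by exact_mod_cast hd
  have hdL : (d : L) ≠ 0 := by exact_mod_cast hd
  have e1 : (fun i => (y i : K)) = (d : K) • x := by funext i; rfl
  have e2 : (fun i => algebraMap K L (y i : K)) = (d : L) • fun i => algebraMap K L (x i) := by
    funext i
    simp [hy]
  have := mulHeight_algebraMap_integer (L := L) y
  rw [e1, e2, mulHeight_smul_eq_mulHeight _ hdK, mulHeight_smul_eq_mulHeight _ hdL] at this
  exact this

/-- The extension formula for logarithmic heights. -/
theorem logHeight_algebraMap [Finite ι] (x : ι → K) :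
    logHeight (fun i => algebraMap K L (x i)) = finrank K L * logHeight x := by
  rw [logHeight_eq_log_mulHeight, logHeight_eq_log_mulHeight, mulHeight_algebraMap,
    Real.log_pow]

end Fermat.Agent.S17.H.Ext
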