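import Mathlib

/-!
# PROGRAM MW (S17), strand H, block A (A7 in one variable): Gelfond / Gauss–Mahler additivity of the height of polynomials

Level-free, Mathlib only.  For a number field `K` and polynomials `f, g ∈ K[X]` with
`deg f + deg g ≤ d`, the (projective, logarithmic) heights of the coefficient vectors satisfy

`|h(f g) - (h(f) + h(g))| ≤ [K : ℚ] · log (2 ^ d · (d + 1))`.

* at a finite place the sup of the absolute values of the coefficients is the Gauss norm, which is
  multiplicative (`Polynomial.gaussNorm_mul`: Gauss's lemma);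
* at an infinite place, for the sup norms of the complex polynomials `F = f.map φ`, `G = g.map φ`:
  `(2 ^ d √(d + 1))⁻¹ ‖F‖ ‖G‖ ≤ ‖F G‖ ≤ (d + 1) ‖F‖ ‖G‖`
  (the Mahler measure is multiplicative and comparable to the sup norm: Gelfond's inequality);
* globally, the height of the Segre vector `(f_i g_j)` is exactly `H(f) H(g)`
  (`Height.mulHeight_fun_mul_eq`), and the coefficient vector of `f g` is compared with the Segre
  vector place by place (the finite parts are equal termwise).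

Main statements: `mulHeight_coeffVec_mul_le`, `mulHeight_coeffVec_mul_ge`,
`abs_logHeight_coeffVec_mul_sub_le`, `exists_abs_logHeight_coeffVec_mul_sub_le`.
-/

set_option autoImplicit false

open Polynomial

namespace Fermat.Agent.S17.H.GelfondOne

/-- The coefficient vector of a polynomial, truncated at degree `d`. -/
def coeffVec {K : Type*} [Semiring K] (d : ℕ) (f : K[X]) : Fin (d + 1) → K :=
  fun i => f.coeff i

@[simp]
theorem coeffVec_apply {K : Type*} [Semiring K] (d : ℕ) (f : K[X]) (i : Fin (d + 1)) :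
    coeffVec d f i = f.coeff i := rfl

theorem coeffVec_ne_zero {K : Type*} [Semiring K] {d : ℕ} {f : K[X]} (hf0 : f ≠ 0)
    (hf : f.natDegree ≤ d) : coeffVec d f ≠ 0 := by
  intro h
  have h1 : f.coeff f.natDegree = 0 := congrFun h ⟨f.natDegree, Nat.lt_succ_of_le hf⟩
  exact hf0 (leadingCoeff_eq_zero.mp h1)

/-! ### The Gauss norm with radius `1` as a supremum over `Fin (d + 1)` -/

/-- The Gauss norm (radius `1`) of a polynomial of degree `≤ d` is the supremum of the values of
its first `d + 1` coefficients. -/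
theorem gaussNorm_one_eq_iSup {R F : Type*} [Semiring R] [FunLike F R ℝ] [ZeroHomClass F R ℝ]
    [NonnegHomClass F R ℝ] (v : F) {d : ℕ} {p : R[X]} (hp : p.natDegree ≤ d) :
    p.gaussNorm v 1 = ⨆ i : Fin (d + 1), v (p.coeff i) := by
  apply le_antisymm
  · by_cases h : p.support.Nonempty
    · simp only [gaussNorm, h, ↓reduceDIte, one_pow, mul_one]
      refine Finset.sup'_le _ _ fun i hi => ?_
      have hid : i < d + 1 := Nat.lt_succ_of_le ((le_natDegree_of_mem_supp i hi).trans hp)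
      exact le_ciSup (Finite.bddAbove_range fun i : Fin (d + 1) => v (p.coeff i)) ⟨i, hid⟩
    · simp only [gaussNorm, h, ↓reduceDIte]
      exact Real.iSup_nonneg fun i => apply_nonneg v _
  · refine ciSup_le fun i => ?_
    have h := p.le_gaussNorm v zero_le_one (i : ℕ)
    rwa [one_pow, mul_one] at h

/-! ### Complex polynomials: sup norm of a product -/

/-- The sup norm of a complex polynomial of degree `≤ d` as a supremum over `Fin (d + 1)`. -/
theorem supNorm_eq_iSup_fin {d : ℕ} {P : ℂ[X]} (hP : P.natDegree ≤ d) :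
    P.supNorm = ⨆ i : Fin (d + 1), ‖P.coeff i‖ :=
  gaussNorm_one_eq_iSup (SeminormedRing.toRingSeminorm ℂ) hP

/-- Upper bound: `‖P Q‖ ≤ (d + 1) ‖P‖ ‖Q‖`. -/
theorem supNorm_mul_le {d : ℕ} {P Q : ℂ[X]} (hd : P.natDegree + Q.natDegree ≤ d) :
    (P * Q).supNorm ≤ ((d : ℝ) + 1) * (P.supNorm * Q.supNorm) := by
  have h0 : 0 ≤ P.supNorm * Q.supNorm := mul_nonneg P.supNorm_nonneg Q.supNorm_nonneg
  obtain ⟨k, hk⟩ := (P * Q).exists_eq_supNorm
  rw [hk]
  by_cases hkd : k ≤ d
  · rw [coeff_mul]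
    refine (norm_sum_le _ _).trans ?_
    refine (Finset.sum_le_sum (g := fun _ => P.supNorm * Q.supNorm) fun x _ => ?_).trans ?_
    · rw [norm_mul]
      exact mul_le_mul (P.le_supNorm _) (Q.le_supNorm _) (norm_nonneg _) P.supNorm_nonneg
    · rw [Finset.sum_const, Finset.Nat.card_antidiagonal, nsmul_eq_mul, Nat.cast_add,
        Nat.cast_one]
      have hkd' : (k : ℝ) ≤ d := by exact_mod_cast hkd
      exact mul_le_mul_of_nonneg_right (by linarith) h0
  · have hc : (P * Q).coeff k = 0 :=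
      coeff_eq_zero_of_natDegree_lt (lt_of_le_of_lt (natDegree_mul_le.trans hd) (not_le.mp hkd))
    rw [hc, norm_zero]
    exact mul_nonneg (by positivity) h0

/-- Lower bound (Gelfond): `‖P‖ ‖Q‖ ≤ 2 ^ d √(d + 1) ‖P Q‖`. -/
theorem supNorm_mul_ge {d : ℕ} {P Q : ℂ[X]} (hd : P.natDegree + Q.natDegree ≤ d) :
    P.supNorm * Q.supNorm ≤ (2 ^ d * Real.sqrt ((d : ℝ) + 1)) * (P * Q).supNorm := by
  have hP := P.supNorm_le_choose_natDegree_div_two_mul_mahlerMeasure
  have hQ := Q.supNorm_le_choose_natDegree_div_two_mul_mahlerMeasure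
  have hPQ := (P * Q).mahlerMeasure_le_sqrt_natDegree_add_one_mul_supNorm
  have hcP : (P.natDegree.choose (P.natDegree / 2) : ℝ) ≤ 2 ^ P.natDegree := by
    exact_mod_cast Nat.choose_le_two_pow _ _
  have hcQ : (Q.natDegree.choose (Q.natDegree / 2) : ℝ) ≤ 2 ^ Q.natDegree := by
    exact_mod_cast Nat.choose_le_two_pow _ _
  have hMP : 0 ≤ P.mahlerMeasure := P.mahlerMeasure_nonneg
  have hMQ : 0 ≤ Q.mahlerMeasure := Q.mahlerMeasure_nonneg
  have hMPQ : 0 ≤ (P * Q).mahlerMeasure := (P * Q).mahlerMeasure_nonneg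
  have h1 : P.supNorm ≤ 2 ^ P.natDegree * P.mahlerMeasure :=
    hP.trans (mul_le_mul_of_nonneg_right hcP hMP)
  have h2 : Q.supNorm ≤ 2 ^ Q.natDegree * Q.mahlerMeasure :=
    hQ.trans (mul_le_mul_of_nonneg_right hcQ hMQ)
  have h3 : P.supNorm * Q.supNorm ≤ 2 ^ (P.natDegree + Q.natDegree) * (P * Q).mahlerMeasure := by
    rw [mahlerMeasure_mul, pow_add]
    calc P.supNorm * Q.supNorm
        ≤ (2 ^ P.natDegree * P.mahlerMeasure) * (2 ^ Q.natDegree * Q.mahlerMeasure) :=
          mul_le_mul h1 h2 Q.supNorm_nonneg (mul_nonneg (by positivity) hMP)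
      _ = 2 ^ P.natDegree * 2 ^ Q.natDegree * (P.mahlerMeasure * Q.mahlerMeasure) := by ring
  have h4 : (2 : ℝ) ^ (P.natDegree + Q.natDegree) ≤ 2 ^ d :=
    pow_le_pow_right₀ (by norm_num) hd
  have h5 : Real.sqrt (((P * Q).natDegree : ℝ) + 1) ≤ Real.sqrt ((d : ℝ) + 1) := by
    apply Real.sqrt_le_sqrt
    have h6 : ((P * Q).natDegree : ℝ) ≤ d := by exact_mod_cast natDegree_mul_le.trans hd
    linarith
  have h7 : (P * Q).mahlerMeasure ≤ Real.sqrt ((d : ℝ) + 1) * (P * Q).supNorm :=
    hPQ.trans (mul_le_mul_of_nonneg_right h5 (P * Q).supNorm_nonneg)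
  calc P.supNorm * Q.supNorm
      ≤ 2 ^ (P.natDegree + Q.natDegree) * (P * Q).mahlerMeasure := h3
    _ ≤ 2 ^ d * (Real.sqrt ((d : ℝ) + 1) * (P * Q).supNorm) :=
        mul_le_mul h4 h7 hMPQ (by positivity)
    _ = (2 ^ d * Real.sqrt ((d : ℝ) + 1)) * (P * Q).supNorm := by ring

/-! ### Number fields: the local comparisons -/

section NumberField

open NumberField Height

variable {K : Type*} [Field K] [NumberField K]

/-- **Gauss's lemma at a finite place.** -/
theorem iSup_finitePlace_mul (v : FinitePlace K) {d : ℕ} {f g : K[X]}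
    (hd : f.natDegree + g.natDegree ≤ d) :
    (⨆ k : Fin (d + 1), v ((f * g).coeff k)) =
      (⨆ i : Fin (d + 1), v (f.coeff i)) * (⨆ j : Fin (d + 1), v (g.coeff j)) := by
  have hna : IsNonarchimedean v.val := FinitePlace.add_le v
  have hf : f.natDegree ≤ d := (Nat.le_add_right _ _).trans hd
  have hg : g.natDegree ≤ d := (Nat.le_add_left _ _).trans hd
  have hfg : (f * g).natDegree ≤ d := natDegree_mul_le.trans hd
  have h := Polynomial.gaussNorm_mul hna one_pos f g
  rw [gaussNorm_one_eq_iSup v.val hfg, gaussNorm_one_eq_iSup v.val hf,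
    gaussNorm_one_eq_iSup v.val hg] at h
  exact h

omit [NumberField K] in
/-- At an infinite place the sup of the absolute values of the coefficients is the sup norm of
the image under the corresponding complex embedding. -/
theorem iSup_infinitePlace_eq_supNorm (v : InfinitePlace K) {d : ℕ} {p : K[X]}
    (hp : p.natDegree ≤ d) :
    (⨆ i : Fin (d + 1), v (p.coeff i)) = (p.map v.embedding).supNorm := by
  rw [supNorm_eq_iSup_fin (natDegree_map_le.trans hp)]
  refine iSup_congr fun i => ?_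
  rw [coeff_map, InfinitePlace.norm_embedding_eq]

omit [NumberField K] in
theorem iSup_infinitePlace_mul_le (v : InfinitePlace K) {d : ℕ} {f g : K[X]}
    (hd : f.natDegree + g.natDegree ≤ d) :
    (⨆ k : Fin (d + 1), v ((f * g).coeff k)) ≤
      ((d : ℝ) + 1) *
        ((⨆ i : Fin (d + 1), v (f.coeff i)) * (⨆ j : Fin (d + 1), v (g.coeff j))) := by
  have hf : f.natDegree ≤ d := (Nat.le_add_right _ _).trans hd
  have hg : g.natDegree ≤ d := (Nat.le_add_left _ _).trans hd
  have hfg : (f * g).natDegree ≤ d := natDegree_mul_le.trans hd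
  rw [iSup_infinitePlace_eq_supNorm v hfg, iSup_infinitePlace_eq_supNorm v hf,
    iSup_infinitePlace_eq_supNorm v hg, Polynomial.map_mul]
  exact supNorm_mul_le ((add_le_add natDegree_map_le natDegree_map_le).trans hd)

omit [NumberField K] in
theorem iSup_infinitePlace_mul_ge (v : InfinitePlace K) {d : ℕ} {f g : K[X]}
    (hd : f.natDegree + g.natDegree ≤ d) :
    (⨆ i : Fin (d + 1), v (f.coeff i)) * (⨆ j : Fin (d + 1), v (g.coeff j)) ≤
      (2 ^ d * Real.sqrt ((d : ℝ) + 1)) * (⨆ k : Fin (d + 1), v ((f * g).coeff k)) := by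
  have hf : f.natDegree ≤ d := (Nat.le_add_right _ _).trans hd
  have hg : g.natDegree ≤ d := (Nat.le_add_left _ _).trans hd
  have hfg : (f * g).natDegree ≤ d := natDegree_mul_le.trans hd
  rw [iSup_infinitePlace_eq_supNorm v hfg, iSup_infinitePlace_eq_supNorm v hf,
    iSup_infinitePlace_eq_supNorm v hg, Polynomial.map_mul]
  exact supNorm_mul_ge ((add_le_add natDegree_map_le natDegree_map_le).trans hd)

/-! ### Number fields: the global statements -/

/-- The Segre vector of the two coefficient vectors. -/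
private def segre (d : ℕ) (f g : K[X]) : Fin (d + 1) × Fin (d + 1) → K :=
  fun a => coeffVec d f a.1 * coeffVec d g a.2

private theorem mulHeight_segre (d : ℕ) {f g : K[X]} (hf0 : f ≠ 0) (hg0 : g ≠ 0)
    (hd : f.natDegree + g.natDegree ≤ d) :
    mulHeight (segre d f g) = mulHeight (coeffVec d f) * mulHeight (coeffVec d g) :=
  mulHeight_fun_mul_eq (coeffVec_ne_zero hf0 ((Nat.le_add_right _ _).trans hd))
    (coeffVec_ne_zero hg0 ((Nat.le_add_left _ _).trans hd))

omit [NumberField K] in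
private theorem segre_ne_zero (d : ℕ) {f g : K[X]} (hf0 : f ≠ 0) (hg0 : g ≠ 0)
    (hd : f.natDegree + g.natDegree ≤ d) : segre d f g ≠ 0 := by
  obtain ⟨i, hi⟩ := Function.ne_iff.mp (coeffVec_ne_zero hf0 ((Nat.le_add_right _ _).trans hd))
  obtain ⟨j, hj⟩ := Function.ne_iff.mp (coeffVec_ne_zero hg0 ((Nat.le_add_left _ _).trans hd))
  exact Function.ne_iff.mpr ⟨(i, j), mul_ne_zero hi hj⟩

omit [NumberField K] in
private theorem iSup_segre_infinite (v : InfinitePlace K) (d : ℕ) (f g : K[X]) :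
    (⨆ a, v (segre d f g a)) =
      (⨆ i : Fin (d + 1), v (f.coeff i)) * (⨆ j : Fin (d + 1), v (g.coeff j)) :=
  Real.iSup_fun_mul_eq_iSup_mul_iSup_of_nonneg v (coeffVec d f) (coeffVec d g)

private theorem iSup_segre_finite (v : FinitePlace K) (d : ℕ) (f g : K[X]) :
    (⨆ a, v (segre d f g a)) =
      (⨆ i : Fin (d + 1), v (f.coeff i)) * (⨆ j : Fin (d + 1), v (g.coeff j)) :=
  Real.iSup_fun_mul_eq_iSup_mul_iSup_of_nonneg v (coeffVec d f) (coeffVec d g)

private theorem finprod_coeffVec_mul (d : ℕ) {f g : K[X]}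
    (hd : f.natDegree + g.natDegree ≤ d) :
    (∏ᶠ v : FinitePlace K, ⨆ k, v (coeffVec d (f * g) k)) =
      ∏ᶠ v : FinitePlace K, ⨆ a, v (segre d f g a) :=
  finprod_congr fun v => by
    rw [iSup_segre_finite]
    exact iSup_finitePlace_mul v hd

/-- **Upper bound**: `H(f g) ≤ (d + 1) ^ [K : ℚ] · H(f) · H(g)`. -/
theorem mulHeight_coeffVec_mul_le (d : ℕ) {f g : K[X]} (hf0 : f ≠ 0) (hg0 : g ≠ 0)
    (hd : f.natDegree + g.natDegree ≤ d) :
    mulHeight (coeffVec d (f * g)) ≤
      ((d : ℝ) + 1) ^ Module.finrank ℚ K *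
        (mulHeight (coeffVec d f) * mulHeight (coeffVec d g)) := by
  have hw : coeffVec d (f * g) ≠ 0 :=
    coeffVec_ne_zero (mul_ne_zero hf0 hg0) (natDegree_mul_le.trans hd)
  rw [← mulHeight_segre d hf0 hg0 hd, NumberField.mulHeight_eq hw,
    NumberField.mulHeight_eq (segre_ne_zero d hf0 hg0 hd), finprod_coeffVec_mul d hd,
    ← mul_assoc]
  refine mul_le_mul_of_nonneg_right ?_
    (finprod_nonneg fun v => Real.iSup_nonneg fun a => apply_nonneg v _)
  rw [← InfinitePlace.sum_mult_eq, ← Finset.prod_pow_eq_pow_sum, ← Finset.prod_mul_distrib]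
  refine Finset.prod_le_prod (fun v _ => pow_nonneg (Real.iSup_nonneg fun k => apply_nonneg v _) _)
    fun v _ => ?_
  rw [← mul_pow]
  refine pow_le_pow_left₀ (Real.iSup_nonneg fun k => apply_nonneg v _) ?_ _
  rw [iSup_segre_infinite]
  exact iSup_infinitePlace_mul_le v hd

/-- **Lower bound**: `H(f) · H(g) ≤ (2 ^ d √(d + 1)) ^ [K : ℚ] · H(f g)`. -/
theorem mulHeight_coeffVec_mul_ge (d : ℕ) {f g : K[X]} (hf0 : f ≠ 0) (hg0 : g ≠ 0)
    (hd : f.natDegree + g.natDegree ≤ d) :
    mulHeight (coeffVec d f) * mulHeight (coeffVec d g) ≤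
      (2 ^ d * Real.sqrt ((d : ℝ) + 1)) ^ Module.finrank ℚ K *
        mulHeight (coeffVec d (f * g)) := by
  have hw : coeffVec d (f * g) ≠ 0 :=
    coeffVec_ne_zero (mul_ne_zero hf0 hg0) (natDegree_mul_le.trans hd)
  rw [← mulHeight_segre d hf0 hg0 hd, NumberField.mulHeight_eq hw,
    NumberField.mulHeight_eq (segre_ne_zero d hf0 hg0 hd), finprod_coeffVec_mul d hd,
    ← mul_assoc]
  refine mul_le_mul_of_nonneg_right ?_
    (finprod_nonneg fun v => Real.iSup_nonneg fun a => apply_nonneg v _)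
  rw [← InfinitePlace.sum_mult_eq, ← Finset.prod_pow_eq_pow_sum, ← Finset.prod_mul_distrib]
  refine Finset.prod_le_prod (fun v _ => pow_nonneg (Real.iSup_nonneg fun a => apply_nonneg v _) _)
    fun v _ => ?_
  rw [← mul_pow]
  refine pow_le_pow_left₀ (Real.iSup_nonneg fun a => apply_nonneg v _) ?_ _
  rw [iSup_segre_infinite]
  exact iSup_infinitePlace_mul_ge v hd

/-- **Gauss–Mahler additivity**, explicit constant. -/
theorem abs_logHeight_coeffVec_mul_sub_le (d : ℕ) {f g : K[X]} (hf0 : f ≠ 0) (hg0 : g ≠ 0)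
    (hd : f.natDegree + g.natDegree ≤ d) :
    |logHeight (coeffVec d (f * g)) - (logHeight (coeffVec d f) + logHeight (coeffVec d g))| ≤
      Module.finrank ℚ K * Real.log (2 ^ d * ((d : ℝ) + 1)) := by
  have hU := mulHeight_coeffVec_mul_le d hf0 hg0 hd
  have hL := mulHeight_coeffVec_mul_ge d hf0 hg0 hd
  have hx := mulHeight_pos (coeffVec d f)
  have hy := mulHeight_pos (coeffVec d g)
  have hw := mulHeight_pos (coeffVec d (f * g))
  have hd1 : (1 : ℝ) ≤ (d : ℝ) + 1 := by
    have : (0 : ℝ) ≤ d := Nat.cast_nonneg d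
    linarith
  have hsq1 : (1 : ℝ) ≤ Real.sqrt ((d : ℝ) + 1) := Real.one_le_sqrt.mpr hd1
  have hsq2 : Real.sqrt ((d : ℝ) + 1) ≤ (d : ℝ) + 1 := by
    rw [Real.sqrt_le_left (by linarith)]
    nlinarith
  have h2d : (1 : ℝ) ≤ 2 ^ d := one_le_pow₀ (by norm_num)
  have hcU : (0 : ℝ) < (d : ℝ) + 1 := by linarith
  have hcL : (0 : ℝ) < 2 ^ d * Real.sqrt ((d : ℝ) + 1) := by positivity
  have hc : (0 : ℝ) < 2 ^ d * ((d : ℝ) + 1) := by positivity
  have hUc : Real.log ((d : ℝ) + 1) ≤ Real.log (2 ^ d * ((d : ℝ) + 1)) :=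
    Real.log_le_log hcU (le_mul_of_one_le_left hcU.le h2d)
  have hLc : Real.log (2 ^ d * Real.sqrt ((d : ℝ) + 1)) ≤ Real.log (2 ^ d * ((d : ℝ) + 1)) :=
    Real.log_le_log hcL (mul_le_mul_of_nonneg_left hsq2 (by positivity))
  have hn : (0 : ℝ) ≤ Module.finrank ℚ K := Nat.cast_nonneg _
  simp only [logHeight_eq_log_mulHeight]
  have e1 : Real.log (mulHeight (coeffVec d (f * g))) ≤
      Module.finrank ℚ K * Real.log ((d : ℝ) + 1) +
        (Real.log (mulHeight (coeffVec d f)) + Real.log (mulHeight (coeffVec d g))) := by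
    have h := Real.log_le_log hw hU
    rwa [Real.log_mul (pow_pos hcU _).ne' (mul_pos hx hy).ne', Real.log_pow,
      Real.log_mul hx.ne' hy.ne'] at h
  have e2 : Real.log (mulHeight (coeffVec d f)) + Real.log (mulHeight (coeffVec d g)) ≤
      Module.finrank ℚ K * Real.log (2 ^ d * Real.sqrt ((d : ℝ) + 1)) +
        Real.log (mulHeight (coeffVec d (f * g))) := by
    have h := Real.log_le_log (mul_pos hx hy) hL
    rwa [Real.log_mul (pow_pos hcL _).ne' hw.ne', Real.log_pow, Real.log_mul hx.ne' hy.ne'] at h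
  rw [abs_le]
  constructor
  · have := mul_le_mul_of_nonneg_left hLc hn
    linarith
  · have := mul_le_mul_of_nonneg_left hUc hn
    linarith

/-- **Gauss–Mahler additivity**: `|h(f g) - h(f) - h(g)| ≤ C(K, d)`. -/
theorem exists_abs_logHeight_coeffVec_mul_sub_le (K : Type*) [Field K] [NumberField K] (d : ℕ) :
    ∃ C : ℝ, ∀ f g : K[X], f ≠ 0 → g ≠ 0 → f.natDegree + g.natDegree ≤ d →
      |logHeight (coeffVec d (f * g)) - (logHeight (coeffVec d f) + logHeight (coeffVec d g))|
        ≤ C :=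
  ⟨_, fun _ _ hf0 hg0 hd => abs_logHeight_coeffVec_mul_sub_le d hf0 hg0 hd⟩

end NumberField

end Fermat.Agent.S17.H.GelfondOne
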