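import Fermat.Agent.S17.H.A.LocConstQbCore
import Fermat.Agent.S17.H.A.AbsExtTwin

/-!
# Program MW, strand H, block A6 (Qb seam, exit): local bounds at every absolute value of the
algebraic closure of ℚ give an inequality of absolute heights

The hypothesis-free forms of `LocConstQbCore`: the extension statement is
`AbsExtTwin.exists_absoluteValue_extension`.

* `hT_le_of_locConst_abv`: if `⨆ b, v (G b) ≤ Cert.locConst c Γ v * (⨆ a, v (F a)) ^ N` for EVERY
  absolute value `v` of the algebraic closure of ℚ, then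
  `hT G ≤ N * hT F + log c + ∑ γ ∈ Γ, hQ γ`.
* `abs_hT_sub_le_of_locConst_abv`: the two-sided form.
-/

set_option autoImplicit false

namespace Fermat.Agent.S17.H.LocConstQb

/-- **(EXT)** holds. -/
theorem extStatement : ExtStatement :=
  fun A _ v hv =>
    AbsExtTwin.exists_absoluteValue_extension (algebraMap A (AlgebraicClosure ℚ)) v hv

variable {ι ι' : Type*} [Finite ι] [Finite ι']

/-- **Local-global assembly over the algebraic closure of ℚ**: local bounds with the constants
`Cert.locConst c Γ v` at EVERY absolute value `v` of the algebraic closure of ℚ give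
`hT G ≤ N * hT F + log c + ∑ γ ∈ Γ, hQ γ`. -/
theorem hT_le_of_locConst_abv {c : ℝ} (hc : 1 ≤ c)
    (Γ : Multiset (AlgebraicClosure ℚ)) (N : ℕ) (F : ι → AlgebraicClosure ℚ)
    (G : ι' → AlgebraicClosure ℚ) (hF : F ≠ 0)
    (h : ∀ v : AbsoluteValue (AlgebraicClosure ℚ) ℝ,
      (⨆ b, v (G b)) ≤ Cert.locConst c Γ v * (⨆ a, v (F a)) ^ N) :
    hT G ≤ N * hT F + Real.log c + (Γ.map hQ).sum :=
  hT_le_of_locConst_abv_of_ext extStatement hc Γ N F G hF h

/-- The two-sided form: an upper and a lower local bound at every absolute value of the algebraic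
closure of ℚ give `|hT G - N * hT F| ≤ const`. -/
theorem abs_hT_sub_le_of_locConst_abv {c c' : ℝ} (hc : 1 ≤ c) (hc' : 1 ≤ c')
    (Γ Γ' : Multiset (AlgebraicClosure ℚ)) (N : ℕ)
    (F : ι → AlgebraicClosure ℚ) (G : ι' → AlgebraicClosure ℚ) (hF : F ≠ 0) (hG : G ≠ 0)
    (hup : ∀ v : AbsoluteValue (AlgebraicClosure ℚ) ℝ,
      (⨆ b, v (G b)) ≤ Cert.locConst c Γ v * (⨆ a, v (F a)) ^ N)
    (hlow : ∀ v : AbsoluteValue (AlgebraicClosure ℚ) ℝ,
      (⨆ a, v (F a)) ^ N ≤ Cert.locConst c' Γ' v * ⨆ b, v (G b)) :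
    |hT G - N * hT F| ≤
      max (Real.log c + (Γ.map hQ).sum) (Real.log c' + (Γ'.map hQ).sum) :=
  abs_hT_sub_le_of_locConst_abv_of_ext extStatement hc hc' Γ Γ' N F G hF hG hup hlow

end Fermat.Agent.S17.H.LocConstQb
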