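import Fermat.Agent.S17.H.A.LocConstQbCore

/-!
# Program MW (S17), strand H, block A6 (Qb seam): PRODUCT form of the local-global assembly

Block C (the local distance estimate, `C-EXIT`) bounds, at EVERY absolute value `v` of the
algebraic closure of ℚ, a PRODUCT of sup-norms of finitely many tuples by a constant
`Cert.locConst c Γ v` times another such product.  Summed over the places this gives an
inequality between SUMS of absolute heights.  The proof is the single form
(`LocConstQb.hT_le_of_locConst_abv_of_ext`, exponent `1`) applied to the two multiplication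
tables (Segre): the sup-norm of a table is the product of the sup-norms (`iSup_abv_table`) and
its height is the sum of the heights (`hT_table`, from Mathlib's `Height.logHeight_fun_prod_eq`).

* `hT_table` : the height of a multiplication table of nonzero tuples.
* `hT_of_subsingleton` : a tuple with at most one entry has height `0`.
* `sum_hT_le_of_locConst_prod_of_ext` : the one-sided product form.
* `abs_sum_hT_sub_le_of_locConst_prod_of_ext` : the two-sided product form.

As in `LocConstQbCore.lean` the extension statement `LocConstQb.ExtStatement` is a hypothesis.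
-/

set_option autoImplicit false

namespace Fermat.Agent.S17.H.LocConstQbProd

open Height NumberField Module

universe u v

section Table

variable {α : Type u} [Fintype α] {ιa : α → Type v} [∀ a, Finite (ιa a)]

/-- Local Segre identity: the sup-norm of a multiplication table is the product of the
sup-norms. -/
theorem iSup_abv_table {K : Type*} [Field K] (v : AbsoluteValue K ℝ) (x : (a : α) → ιa a → K) :
    ⨆ I : (a : α) → ιa a, v (∏ a, x a (I a)) = ∏ a, ⨆ i, v (x a i) := by
  simp_rw [map_prod]
  exact Real.iSup_prod_eq_prod_iSup_of_nonnegHomClass v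

omit [∀ a, Finite (ιa a)] in
/-- The multiplication table of nonzero tuples is nonzero. -/
theorem table_ne_zero {K : Type*} [Field K] {x : (a : α) → ιa a → K} (hx : ∀ a, x a ≠ 0) :
    (fun J : (a : α) → ιa a ↦ ∏ a, x a (J a)) ≠ 0 := by
  classical
  have h := fun a ↦ Function.ne_iff.mp (hx a)
  choose J hJ using h
  exact Function.ne_iff.mpr ⟨J, Finset.prod_ne_zero_iff.mpr fun a _ ↦ hJ a⟩

/-- Global Segre identity for the absolute height: the height of the multiplication table of
finitely many nonzero tuples is the sum of their heights. -/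
theorem hT_table (x : (a : α) → ιa a → AlgebraicClosure ℚ) (hx : ∀ a, x a ≠ 0) :
    hT (fun I : (a : α) → ιa a => ∏ a, x a (I a)) = ∑ a, hT (x a) := by
  obtain ⟨A, hA, z, hz⟩ := exists_lift_Qb (fun p : Σ a, ιa a => x p.1 p.2)
  have e1 : ∀ a, x a = fun i => ((z ⟨a, i⟩ : A) : AlgebraicClosure ℚ) :=
    fun a => funext fun i => (hz ⟨a, i⟩).symm
  have hz0 : ∀ a, (fun i => z ⟨a, i⟩) ≠ 0 := by
    intro a h0
    apply hx a
    funext i
    rw [e1 a]
    have := congrFun h0 i
    simp only [Pi.zero_apply] at this ⊢
    rw [this]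
    rfl
  have e2 : (fun I : (a : α) → ιa a => ∏ a, x a (I a)) =
      fun I => ((∏ a, z ⟨a, I a⟩ : A) : AlgebraicClosure ℚ) := by
    funext I
    push_cast
    exact Finset.prod_congr rfl fun a _ => (hz ⟨a, I a⟩).symm
  rw [e2, hT_coe, logHeight_fun_prod_eq (x := fun a i => z ⟨a, i⟩) hz0, Finset.sum_div]
  refine Finset.sum_congr rfl fun a _ => ?_
  rw [e1 a, hT_coe]

end Table

/-- A tuple with at most one entry has height `0`. -/
theorem hT_of_subsingleton {ι : Type*} [Finite ι] [Subsingleton ι] (x : ι → AlgebraicClosure ℚ) :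
    hT x = 0 := by
  obtain ⟨A, hA, z, hz⟩ := exists_lift_Qb x
  have e1 : x = fun i => ((z i : A) : AlgebraicClosure ℚ) := funext fun i => (hz i).symm
  rw [e1, hT_coe, logHeight_eq_zero_of_subsingleton, zero_div]

variable {α β : Type u} [Fintype α] [Fintype β] {ιa : α → Type v} {ιb : β → Type v}
  [∀ a, Finite (ιa a)] [∀ b, Finite (ιb b)]

/-- **Product form of the local-global assembly over the algebraic closure of ℚ** (from the
extension statement): if at EVERY absolute value `v` the product of the sup-norms of the tuples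
`g b` is at most `Cert.locConst c Γ v` times the product of the sup-norms of the tuples `f a`,
then `∑ b, hT (g b) ≤ ∑ a, hT (f a) + log c + ∑ γ ∈ Γ, hQ γ`. -/
theorem sum_hT_le_of_locConst_prod_of_ext (hext : LocConstQb.ExtStatement) {c : ℝ} (hc : 1 ≤ c)
    (Γ : Multiset (AlgebraicClosure ℚ)) (f : (a : α) → ιa a → AlgebraicClosure ℚ)
    (g : (b : β) → ιb b → AlgebraicClosure ℚ) (hf : ∀ a, f a ≠ 0) (hg : ∀ b, g b ≠ 0)
    (h : ∀ v : AbsoluteValue (AlgebraicClosure ℚ) ℝ,
      ∏ b, ⨆ i, v (g b i) ≤ Cert.locConst c Γ v * ∏ a, ⨆ i, v (f a i)) :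
    ∑ b, hT (g b) ≤ ∑ a, hT (f a) + Real.log c + (Γ.map hQ).sum := by
  have key := LocConstQb.hT_le_of_locConst_abv_of_ext hext hc Γ 1
    (fun J : (a : α) → ιa a => ∏ a, f a (J a)) (fun I : (b : β) → ιb b => ∏ b, g b (I b))
    (table_ne_zero hf)
    (fun v => by rw [iSup_abv_table v g, iSup_abv_table v f, pow_one]; exact h v)
  rw [hT_table g hg, hT_table f hf] at key
  simpa using key

/-- **Two-sided product form**: an upper and a lower local bound between two products of
sup-norms, at every absolute value of the algebraic closure of ℚ, bound the difference of the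
two sums of heights. -/
theorem abs_sum_hT_sub_le_of_locConst_prod_of_ext (hext : LocConstQb.ExtStatement) {c c' : ℝ}
    (hc : 1 ≤ c) (hc' : 1 ≤ c') (Γ Γ' : Multiset (AlgebraicClosure ℚ))
    (f : (a : α) → ιa a → AlgebraicClosure ℚ) (g : (b : β) → ιb b → AlgebraicClosure ℚ)
    (hf : ∀ a, f a ≠ 0) (hg : ∀ b, g b ≠ 0)
    (hup : ∀ v : AbsoluteValue (AlgebraicClosure ℚ) ℝ,
      ∏ b, ⨆ i, v (g b i) ≤ Cert.locConst c Γ v * ∏ a, ⨆ i, v (f a i))
    (hlow : ∀ v : AbsoluteValue (AlgebraicClosure ℚ) ℝ,
      ∏ a, ⨆ i, v (f a i) ≤ Cert.locConst c' Γ' v * ∏ b, ⨆ i, v (g b i)) :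
    |∑ b, hT (g b) - ∑ a, hT (f a)| ≤
      max (Real.log c + (Γ.map hQ).sum) (Real.log c' + (Γ'.map hQ).sum) := by
  have h1 := sum_hT_le_of_locConst_prod_of_ext hext hc Γ f g hf hg hup
  have h2 := sum_hT_le_of_locConst_prod_of_ext hext hc' Γ' g f hg hf hlow
  rw [abs_le]
  constructor
  · have := le_max_right (Real.log c + (Γ.map hQ).sum) (Real.log c' + (Γ'.map hQ).sum)
    linarith
  · have := le_max_left (Real.log c + (Γ.map hQ).sum) (Real.log c' + (Γ'.map hQ).sum)
    linarith

end Fermat.Agent.S17.H.LocConstQbProd
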