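import Fermat.Agent.S17.H.A.LocConstGlobal

/-!
# Program MW, strand H: local-global assembly with absolute values of the algebraic closure of ℚ

`hT_le_of_forall_abv_of_ext`: if a bound
`sup_b v(G_b) ≤ Cert.locConst c Γ v * (sup_a v(F_a)) ^ N`
holds for EVERY absolute value `v` of the algebraic closure of ℚ, then
`hT G ≤ N * hT F + log c + ∑ γ ∈ Γ, hQ γ`.

The statement takes as a hypothesis `hext` the extension of the absolute values of a number field
inside the algebraic closure of ℚ to the whole algebraic closure (leaf EXT of block A); with it,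
no consumer has to descend its data to a number field.
-/

set_option autoImplicit false

namespace Fermat.Agent.S17.H

open Height AdmissibleAbsValues

section Field

variable {K : Type*} [Field K] [AdmissibleAbsValues K] {ι ι' : Type*} [Finite ι] [Finite ι']

/-- **Local-global assembly** with the local constants `c * Cert.gamProd Γ v` at the archimedean
absolute values of the family and `Cert.gamProd Γ v` at the non-archimedean ones. -/
theorem logHeight_le_of_gamProd {c : ℝ} (hc : 1 ≤ c) (Γ : Multiset K) (N : ℕ)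
    (f : ι → K) (g : ι' → K) (hf : f ≠ 0)
    (harch : ∀ v ∈ archAbsVal (K := K),
      (⨆ b, v (g b)) ≤ c * Cert.gamProd Γ v * (⨆ a, v (f a)) ^ N)
    (hnon : ∀ v ∈ nonarchAbsVal (K := K),
      (⨆ b, v (g b)) ≤ Cert.gamProd Γ v * (⨆ a, v (f a)) ^ N) :
    logHeight g ≤ N * logHeight f + totalWeight K * Real.log c + (Γ.map logHeight₁).sum := by
  obtain ⟨l, rfl⟩ : ∃ l : List K, (l : Multiset K) = Γ := ⟨Γ.toList, Γ.coe_toList⟩
  have key := logHeight_le_of_local (fun j : Fin l.length => l.get j) hc 1 N f g hf ?_ ?_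
  · rw [Nat.cast_one, one_mul, ← list_map_sum_eq_sum_get l logHeight₁] at key
    rwa [Multiset.map_coe, Multiset.sum_coe]
  · intro v hv
    rw [← gamProd_coe_eq_prod_get]
    exact harch v hv
  · intro v hv
    rw [← gamProd_coe_eq_prod_get]
    exact hnon v hv

end Field

section Abs

open NumberField Module

variable {ι ι' : Type*} [Finite ι] [Finite ι']

/-- The product part of a local constant is compatible with restriction of absolute values. -/
theorem gamProd_map_coe (A : IntermediateField ℚ (AlgebraicClosure ℚ)) (Γ' : Multiset A)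
    (v : AbsoluteValue A ℝ) (v' : AbsoluteValue (AlgebraicClosure ℚ) ℝ)
    (hv : ∀ x : A, v' (x : AlgebraicClosure ℚ) = v x) :
    Cert.gamProd (Γ'.map fun γ : A => (γ : AlgebraicClosure ℚ)) v' = Cert.gamProd Γ' v := by
  unfold Cert.gamProd
  rw [Multiset.map_map]
  congr 1
  refine Multiset.map_congr rfl fun γ _ => ?_
  simp only [Function.comp_apply, hv]

/-- Local-global assembly for the absolute height inside one number field, with the local
constants split into the archimedean and the non-archimedean absolute values of the family. -/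
theorem hT_le_of_gamProd_coe (A : IntermediateField ℚ (AlgebraicClosure ℚ)) [NumberField A]
    {c : ℝ} (hc : 1 ≤ c) (Γ : Multiset A) (N : ℕ) (f : ι → A) (g : ι' → A) (hf : f ≠ 0)
    (harch : ∀ v ∈ archAbsVal (K := A),
      (⨆ b, v (g b)) ≤ c * Cert.gamProd Γ v * (⨆ a, v (f a)) ^ N)
    (hnon : ∀ v ∈ nonarchAbsVal (K := A),
      (⨆ b, v (g b)) ≤ Cert.gamProd Γ v * (⨆ a, v (f a)) ^ N) :
    hT (fun b => (g b : AlgebraicClosure ℚ)) ≤
      N * hT (fun a => (f a : AlgebraicClosure ℚ)) + Real.log c +
        (Γ.map fun γ : A => hQ (γ : AlgebraicClosure ℚ)).sum := by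
  have hd : (0 : ℝ) < (finrank ℚ A : ℝ) := Nat.cast_pos.mpr Module.finrank_pos
  have hle := logHeight_le_of_gamProd hc Γ N f g hf harch hnon
  rw [NumberField.totalWeight_eq_finrank] at hle
  have hs : (Γ.map fun γ : A => hQ (γ : AlgebraicClosure ℚ)).sum =
      (Γ.map logHeight₁).sum / (finrank ℚ A : ℝ) := by
    simp only [hQ_coe, div_eq_mul_inv]
    rw [Multiset.sum_map_mul_right]
  rw [hs, hT_coe, hT_coe, div_le_iff₀ hd]
  have h2 : (↑N * (logHeight f / (finrank ℚ A : ℝ)) + Real.log c +
      (Γ.map logHeight₁).sum / (finrank ℚ A : ℝ)) * (finrank ℚ A : ℝ) =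
      N * logHeight f + (finrank ℚ A : ℝ) * Real.log c + (Γ.map logHeight₁).sum := by
    field_simp
  rw [h2]
  exact hle

/-- **Local-global assembly for the absolute height, with absolute values of the algebraic closure
of ℚ** (the extension of absolute values from number fields is the hypothesis `hext`). -/
theorem hT_le_of_forall_abv_of_ext
    (hext : ∀ (A : IntermediateField ℚ (AlgebraicClosure ℚ)) [NumberField A]
      (v : AbsoluteValue A ℝ), (v ∈ archAbsVal (K := A) ∨ v ∈ nonarchAbsVal (K := A)) →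
      ∃ v' : AbsoluteValue (AlgebraicClosure ℚ) ℝ,
        (∀ x : A, v' (x : AlgebraicClosure ℚ) = v x) ∧ (IsNonarchimedean v → IsNonarchimedean v'))
    {c : ℝ} (hc : 1 ≤ c) (Γ : Multiset (AlgebraicClosure ℚ)) (N : ℕ)
    (F : ι → AlgebraicClosure ℚ) (G : ι' → AlgebraicClosure ℚ) (hF : F ≠ 0)
    (h : ∀ v : AbsoluteValue (AlgebraicClosure ℚ) ℝ,
      (⨆ b, v (G b)) ≤ Cert.locConst c Γ v * (⨆ a, v (F a)) ^ N) :
    hT G ≤ N * hT F + Real.log c + (Γ.map hQ).sum := by
  obtain ⟨l, rfl⟩ : ∃ l : List (AlgebraicClosure ℚ), (l : Multiset (AlgebraicClosure ℚ)) = Γ :=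
    ⟨Γ.toList, Γ.coe_toList⟩
  obtain ⟨A, hA, z, hz⟩ :=
    exists_lift_Qb (Sum.elim F (Sum.elim G (fun j : Fin l.length => l.get j)))
  set f : ι → A := fun a => z (Sum.inl a) with hfdef
  set g : ι' → A := fun b => z (Sum.inr (Sum.inl b)) with hgdef
  set Γ' : Multiset A := ((List.ofFn fun j : Fin l.length => z (Sum.inr (Sum.inr j)) : List A) :
    Multiset A) with hΓdef
  have hf : ∀ a, (f a : AlgebraicClosure ℚ) = F a := fun a => hz (Sum.inl a)
  have hg : ∀ b, (g b : AlgebraicClosure ℚ) = G b := fun b => hz (Sum.inr (Sum.inl b))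
  have hΓ : Γ'.map (fun γ : A => (γ : AlgebraicClosure ℚ)) =
      (l : Multiset (AlgebraicClosure ℚ)) := by
    rw [hΓdef, Multiset.map_coe, List.map_ofFn]
    congr 1
    have h1 : ((fun γ : A => (γ : AlgebraicClosure ℚ)) ∘ fun j : Fin l.length =>
        z (Sum.inr (Sum.inr j))) = fun j : Fin l.length => l.get j :=
      funext fun j => hz (Sum.inr (Sum.inr j))
    rw [h1, List.ofFn_get]
  have hf0 : f ≠ 0 := by
    intro h0
    apply hF
    funext a
    rw [← hf a, h0]
    rfl
  -- the local bound at an absolute value `v` of `A` with an extension `v'`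
  have hloc : ∀ (v : AbsoluteValue A ℝ) (v' : AbsoluteValue (AlgebraicClosure ℚ) ℝ),
      (∀ x : A, v' (x : AlgebraicClosure ℚ) = v x) →
      (⨆ b, v (g b)) ≤ Cert.locConst c (l : Multiset (AlgebraicClosure ℚ)) v' *
        (⨆ a, v (f a)) ^ N := by
    intro v v' hv'
    have e1 : (⨆ b, v' (G b)) = ⨆ b, v (g b) :=
      iSup_congr fun b => by rw [← hg b, hv']
    have e2 : (⨆ a, v' (F a)) = ⨆ a, v (f a) :=
      iSup_congr fun a => by rw [← hf a, hv']
    have := h v'
    rwa [e1, e2] at this
  have key := hT_le_of_gamProd_coe A hc Γ' N f g hf0 ?_ ?_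
  · have e1 : (fun b => (g b : AlgebraicClosure ℚ)) = G := funext hg
    have e2 : (fun a => (f a : AlgebraicClosure ℚ)) = F := funext hf
    have e3 : (Γ'.map fun γ : A => hQ (γ : AlgebraicClosure ℚ)).sum =
        ((l : Multiset (AlgebraicClosure ℚ)).map hQ).sum := by
      rw [← hΓ, Multiset.map_map]
      rfl
    rw [e1, e2, e3] at key
    exact key
  · intro v hv
    obtain ⟨v', hv', -⟩ := hext A v (Or.inl hv)
    have hS : 0 ≤ (⨆ a, v (f a)) ^ N := pow_nonneg (Real.iSup_nonneg fun i => v.nonneg _) N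
    refine (hloc v v' hv').trans ?_
    rw [← gamProd_map_coe A Γ' v v' hv', hΓ]
    exact mul_le_mul_of_nonneg_right (Cert.locConst_le hc _ v') hS
  · intro v hv
    obtain ⟨v', hv', hna⟩ := hext A v (Or.inr hv)
    refine (hloc v v' hv').trans (le_of_eq ?_)
    rw [Cert.locConst_of_nonarch (hna (isNonarchimedean v hv)), ← gamProd_map_coe A Γ' v v' hv',
      hΓ]

end Abs

end Fermat.Agent.S17.H
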