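/-
Program MW (statement S17), strand H, block A: the product form of the local-global assembly
over `Qb`, for two finite families of tuples with natural weights (dependent index types).

If at every absolute value `v` of `Qb`

`∏ b, (⨆ i, v (g b i)) ^ eg b ≤ locConst c Γ v * ∏ a, (⨆ i, v (f a i)) ^ ef a`,

then `∑ b, eg b * hT (g b) ≤ ∑ a, ef a * hT (f a) + log c + ∑ γ ∈ Γ, hQ γ`.
This is `ProdForm.HasHT.le_of_locConst` for the two local functions built by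
`HasHT.prod`, `HasHT.pow` and `hasHT_tuple`.
-/
import Fermat.Agent.S17.H.A.ProdForm

namespace Fermat.Agent.S17.H.ProdForm

variable {α β : Type*} [Fintype α] [Fintype β] {ιf : α → Type*} {ιg : β → Type*}
  [∀ a, Finite (ιf a)] [∀ b, Finite (ιg b)]

/-- The local function `v ↦ ∏ a, (⨆ i, v (f a i)) ^ e a` of a weighted family of nonzero
tuples, with its height `∑ a, e a * hT (f a)`. -/
theorem hasHT_family (f : ∀ a, ιf a → AlgebraicClosure ℚ) (e : α → ℕ) (hf : ∀ a, f a ≠ 0) :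
    HasHT (fun v => ∏ a, (⨆ i, v (f a i)) ^ e a) (∑ a, (e a : ℝ) * hT (f a)) :=
  HasHT.prod Finset.univ (L := fun a v => (⨆ i, v (f a i)) ^ e a)
    (h := fun a => (e a : ℝ) * hT (f a)) fun a _ => (hasHT_tuple (hf a)).pow (e a)

/-- **Product form of the local-global assembly, weighted families.** -/
theorem hT_sum_le_of_locConst_prod (f : ∀ a, ιf a → AlgebraicClosure ℚ)
    (g : ∀ b, ιg b → AlgebraicClosure ℚ) (ef : α → ℕ) (eg : β → ℕ) (hf : ∀ a, f a ≠ 0)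
    (hg : ∀ b, g b ≠ 0) {c : ℝ} (hc : 1 ≤ c) (Γ : Multiset (AlgebraicClosure ℚ))
    (h : ∀ v : AbsoluteValue (AlgebraicClosure ℚ) ℝ,
      ∏ b, (⨆ i, v (g b i)) ^ eg b ≤ Cert.locConst c Γ v * ∏ a, (⨆ i, v (f a i)) ^ ef a) :
    ∑ b, (eg b : ℝ) * hT (g b) ≤ ∑ a, (ef a : ℝ) * hT (f a) + Real.log c + (Γ.map hQ).sum :=
  (hasHT_family g eg hg).le_of_locConst (hasHT_family f ef hf) hc Γ h

/-- **Two-sided product form, weighted families.** -/
theorem abs_hT_sum_sub_le_of_locConst_prod (f : ∀ a, ιf a → AlgebraicClosure ℚ)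
    (g : ∀ b, ιg b → AlgebraicClosure ℚ) (ef : α → ℕ) (eg : β → ℕ) (hf : ∀ a, f a ≠ 0)
    (hg : ∀ b, g b ≠ 0) {c : ℝ} (hc : 1 ≤ c) (Γ : Multiset (AlgebraicClosure ℚ))
    (hup : ∀ v : AbsoluteValue (AlgebraicClosure ℚ) ℝ,
      ∏ b, (⨆ i, v (g b i)) ^ eg b ≤ Cert.locConst c Γ v * ∏ a, (⨆ i, v (f a i)) ^ ef a)
    (hdown : ∀ v : AbsoluteValue (AlgebraicClosure ℚ) ℝ,
      ∏ a, (⨆ i, v (f a i)) ^ ef a ≤ Cert.locConst c Γ v * ∏ b, (⨆ i, v (g b i)) ^ eg b) :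
    |∑ b, (eg b : ℝ) * hT (g b) - ∑ a, (ef a : ℝ) * hT (f a)| ≤
      Real.log c + (Γ.map hQ).sum :=
  (hasHT_family g eg hg).abs_sub_le (hasHT_family f ef hf) hc Γ hup hdown

end Fermat.Agent.S17.H.ProdForm
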